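import Fermat.Agent.Lib.FrobCH.Defs

/-!
# The addition-and-subtraction map on triples of polynomials

The three quadratic forms `asF` of the addition-and-subtraction map of an elliptic curve with
constant coefficients send primitive triples of polynomials to primitive triples, and exactly
double the maximum of the degrees.
-/

namespace Fermat.Agent.Lib.FrobCH

open Polynomial WeierstrassCurve

noncomputable section

variable {k : Type*} [Field k]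

/-! ### the certificate identities (over any commutative ring) -/

theorem AddSub_cert0 {R : Type*} [CommRing R] (b₂ b₄ b₆ b₈ s t u : R)
    (h : 4 * b₈ = b₂ * b₆ - b₄ ^ 2) :
    ((-b₂ ^ 2 * b₈ + 9 * b₂ * b₄ * b₆ - 8 * b₄ ^ 3 - 27 * b₆ ^ 2) * (s * s) +
        (2 * b₂ * b₄ * b₈ - 2 * b₄ ^ 2 * b₆ - 10 * b₆ * b₈) * (s * t) +
        (-b₂ * b₆ * b₈ + b₄ * b₆ ^ 2) * (s * u) +
        (3 * b₄ ^ 2 * b₈ - 3 * b₄ * b₆ ^ 2) * (t * t) +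
        (3 * b₄ * b₆ * b₈ - 3 * b₆ ^ 3) * (t * u)) *
      (s ^ 2 - b₄ * s * u - b₆ * t * u - b₈ * u ^ 2) +
    ((-b₂ * b₄ * b₈ + b₄ ^ 2 * b₆ + 5 * b₆ * b₈) * (s * s) +
        (2 * b₂ * b₆ * b₈ - 2 * b₄ * b₆ ^ 2 - 10 * b₈ ^ 2) * (s * t) +
        (-b₂ * b₈ ^ 2 + b₄ * b₆ * b₈) * (s * u) +
        (3 * b₄ * b₆ * b₈ - 3 * b₆ ^ 3) * (t * t) +
        (3 * b₄ * b₈ ^ 2 - 3 * b₆ ^ 2 * b₈) * (t * u)) *
      (2 * t * s + b₂ * s * u + b₄ * t * u + b₆ * u ^ 2) +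
    ((b₂ * b₆ * b₈ - 8 * b₄ ^ 2 * b₈ + 7 * b₄ * b₆ ^ 2) * (s * s) +
        (-6 * b₄ * b₆ * b₈ + 6 * b₆ ^ 3) * (s * t) +
        (-8 * b₄ * b₈ ^ 2 + 8 * b₆ ^ 2 * b₈) * (s * u)) *
      (t ^ 2 - 4 * s * u) =
    (-b₂ ^ 2 * b₈ - 8 * b₄ ^ 3 - 27 * b₆ ^ 2 + 9 * b₂ * b₄ * b₆) * s ^ 4 := by
  grind only

theorem AddSub_cert1 {R : Type*} [CommRing R] (b₂ b₄ b₆ b₈ s t u : R)
    (h : 4 * b₈ = b₂ * b₆ - b₄ ^ 2) :
    ((96 * b₆) * (s * t) + (12 * b₂ * b₆ - 64 * b₈) * (t * t) + (16 * b₄ * b₆) * (t * u)) *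
      (s ^ 2 - b₄ * s * u - b₆ * t * u - b₈ * u ^ 2) +
    ((-48 * b₆) * (s * s) + (32 * b₈) * (s * t) + (-4 * b₂ * b₈ + 16 * b₄ * b₆) * (t * t) +
        (16 * b₄ * b₈) * (t * u)) *
      (2 * t * s + b₂ * s * u + b₄ * t * u + b₆ * u ^ 2) +
    ((-12 * b₂ * b₆) * (s * s) + (8 * b₂ * b₈ - 32 * b₄ * b₆) * (s * t) +
        (-12 * b₆ ^ 2) * (s * u) +
        (-b₂ ^ 2 * b₈ + 9 * b₂ * b₄ * b₆ - 8 * b₄ ^ 3 - 27 * b₆ ^ 2) * (t * t) +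
        (4 * b₂ * b₄ * b₈ - 4 * b₂ * b₆ ^ 2) * (t * u)) *
      (t ^ 2 - 4 * s * u) =
    (-b₂ ^ 2 * b₈ - 8 * b₄ ^ 3 - 27 * b₆ ^ 2 + 9 * b₂ * b₄ * b₆) * t ^ 4 := by
  grind only

theorem AddSub_cert2 {R : Type*} [CommRing R] (b₂ b₄ b₆ b₈ s t u : R)
    (h : 4 * b₈ = b₂ * b₆ - b₄ ^ 2) :
    ((-12) * (t * t) + (-4 * b₂) * (t * u) + (b₂ ^ 2 - 32 * b₄) * (u * u)) *
      (s ^ 2 - b₄ * s * u - b₆ * t * u - b₈ * u ^ 2) +
    (6 * (s * t) + (-b₂) * (s * u) + (-5 * b₄) * (t * u) + (b₂ * b₄ - 27 * b₆) * (u * u)) *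
      (2 * t * s + b₂ * s * u + b₄ * t * u + b₆ * u ^ 2) +
    ((-8 * b₄) * (s * u) + (-12 * b₆) * (t * u) + (b₄ ^ 2 - 28 * b₈) * (u * u)) *
      (t ^ 2 - 4 * s * u) =
    (-b₂ ^ 2 * b₈ - 8 * b₄ ^ 3 - 27 * b₆ ^ 2 + 9 * b₂ * b₄ * b₆) * u ^ 4 := by
  grind only

/-! ### degree bounds for quadratic forms with constant coefficients -/

theorem AddSub_natDegree_le_dmax3 (v : Fin 3 → k[X]) (i : Fin 3) :
    (v i).natDegree ≤ dmax3 v := by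
  fin_cases i <;> simp [dmax3]

theorem AddSub_exists_natDegree_eq_dmax3 (v : Fin 3 → k[X]) :
    ∃ i : Fin 3, (v i).natDegree = dmax3 v := by
  unfold dmax3
  rcases le_total (v 1).natDegree (v 2).natDegree with h12 | h12
  · rcases le_total (v 0).natDegree (v 2).natDegree with h | h
    · exact ⟨2, by rw [max_eq_right h12, max_eq_right h]⟩
    · exact ⟨0, by rw [max_eq_right h12, max_eq_left h]⟩
  · rcases le_total (v 0).natDegree (v 1).natDegree with h | h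
    · exact ⟨1, by rw [max_eq_left h12, max_eq_right h]⟩
    · exact ⟨0, by rw [max_eq_left h12, max_eq_left h]⟩

theorem AddSub_dmax3_le {v : Fin 3 → k[X]} {n : ℕ} (h : ∀ i, (v i).natDegree ≤ n) :
    dmax3 v ≤ n := by
  unfold dmax3
  exact max_le (h 0) (max_le (h 1) (h 2))

theorem AddSub_natDegree_term (a : k) (v : Fin 3 → k[X]) (i j : Fin 3) :
    (C a * (v i * v j)).natDegree ≤ 2 * dmax3 v := by
  have hi := AddSub_natDegree_le_dmax3 v i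
  have hj := AddSub_natDegree_le_dmax3 v j
  calc (C a * (v i * v j)).natDegree ≤ (v i * v j).natDegree := natDegree_C_mul_le _ _
    _ ≤ (v i).natDegree + (v j).natDegree := natDegree_mul_le
    _ ≤ 2 * dmax3 v := by omega

/-- a quadratic form in three variables with constant coefficients -/
def AddSub_qf (c : Fin 6 → k) (v : Fin 3 → k[X]) : k[X] :=
  C (c 0) * (v 0 * v 0) + C (c 1) * (v 0 * v 1) + C (c 2) * (v 0 * v 2) +
    C (c 3) * (v 1 * v 1) + C (c 4) * (v 1 * v 2) + C (c 5) * (v 2 * v 2)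

theorem AddSub_natDegree_qf (c : Fin 6 → k) (v : Fin 3 → k[X]) :
    (AddSub_qf c v).natDegree ≤ 2 * dmax3 v := by
  unfold AddSub_qf
  refine natDegree_add_le_of_degree_le (natDegree_add_le_of_degree_le
    (natDegree_add_le_of_degree_le (natDegree_add_le_of_degree_le
    (natDegree_add_le_of_degree_le ?_ ?_) ?_) ?_) ?_) ?_ <;>
  exact AddSub_natDegree_term _ _ _ _

/-- the coefficients of the three forms `asF` -/
def AddSub_cA (W : WeierstrassCurve k) : Fin 3 → Fin 6 → k :=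
  ![![1, 0, -W.b₄, 0, -W.b₆, -W.b₈], ![0, 2, W.b₂, 0, W.b₄, W.b₆], ![0, 0, -4, 1, 0, 0]]

/-- the coefficients of the nine forms of the certificate -/
def AddSub_cG (W : WeierstrassCurve k) : Fin 3 → Fin 3 → Fin 6 → k :=
  ![![![-W.b₂ ^ 2 * W.b₈ + 9 * W.b₂ * W.b₄ * W.b₆ - 8 * W.b₄ ^ 3 - 27 * W.b₆ ^ 2,
        2 * W.b₂ * W.b₄ * W.b₈ - 2 * W.b₄ ^ 2 * W.b₆ - 10 * W.b₆ * W.b₈,
        -W.b₂ * W.b₆ * W.b₈ + W.b₄ * W.b₆ ^ 2,
        3 * W.b₄ ^ 2 * W.b₈ - 3 * W.b₄ * W.b₆ ^ 2,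
        3 * W.b₄ * W.b₆ * W.b₈ - 3 * W.b₆ ^ 3,
        0],
      ![-W.b₂ * W.b₄ * W.b₈ + W.b₄ ^ 2 * W.b₆ + 5 * W.b₆ * W.b₈,
        2 * W.b₂ * W.b₆ * W.b₈ - 2 * W.b₄ * W.b₆ ^ 2 - 10 * W.b₈ ^ 2,
        -W.b₂ * W.b₈ ^ 2 + W.b₄ * W.b₆ * W.b₈,
        3 * W.b₄ * W.b₆ * W.b₈ - 3 * W.b₆ ^ 3,
        3 * W.b₄ * W.b₈ ^ 2 - 3 * W.b₆ ^ 2 * W.b₈,
        0],
      ![W.b₂ * W.b₆ * W.b₈ - 8 * W.b₄ ^ 2 * W.b₈ + 7 * W.b₄ * W.b₆ ^ 2,
        -6 * W.b₄ * W.b₆ * W.b₈ + 6 * W.b₆ ^ 3,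
        -8 * W.b₄ * W.b₈ ^ 2 + 8 * W.b₆ ^ 2 * W.b₈,
        0, 0, 0]],
    ![![0, 96 * W.b₆, 0, 12 * W.b₂ * W.b₆ - 64 * W.b₈, 16 * W.b₄ * W.b₆, 0],
      ![-48 * W.b₆, 32 * W.b₈, 0, -4 * W.b₂ * W.b₈ + 16 * W.b₄ * W.b₆, 16 * W.b₄ * W.b₈, 0],
      ![-12 * W.b₂ * W.b₆, 8 * W.b₂ * W.b₈ - 32 * W.b₄ * W.b₆, -12 * W.b₆ ^ 2,
        -W.b₂ ^ 2 * W.b₈ + 9 * W.b₂ * W.b₄ * W.b₆ - 8 * W.b₄ ^ 3 - 27 * W.b₆ ^ 2,
        4 * W.b₂ * W.b₄ * W.b₈ - 4 * W.b₂ * W.b₆ ^ 2,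
        0]],
    ![![0, 0, 0, -12, -4 * W.b₂, W.b₂ ^ 2 - 32 * W.b₄],
      ![0, 6, -W.b₂, 0, -5 * W.b₄, W.b₂ * W.b₄ - 27 * W.b₆],
      ![0, 0, -8 * W.b₄, 0, -12 * W.b₆, W.b₄ ^ 2 - 28 * W.b₈]]]

theorem AddSub_asF_eq_qf (W : WeierstrassCurve k) (v : Fin 3 → k[X]) (j : Fin 3) :
    asF (W.map C) v j = AddSub_qf (AddSub_cA W j) v := by
  fin_cases j <;>
    simp [asF, AddSub_qf, AddSub_cA, map_b₂, map_b₄, map_b₆, map_b₈, map_ofNat] <;> ring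

theorem AddSub_b_relation_C (W : WeierstrassCurve k) :
    4 * (C W.b₈ : k[X]) = C W.b₂ * C W.b₆ - C W.b₄ ^ 2 := by
  have h := congrArg (C : k → k[X]) W.b_relation
  simpa [map_ofNat] using h

theorem AddSub_cert (W : WeierstrassCurve k) (v : Fin 3 → k[X]) (i : Fin 3) :
    AddSub_qf (AddSub_cG W i 0) v * asF (W.map C) v 0 +
      AddSub_qf (AddSub_cG W i 1) v * asF (W.map C) v 1 +
      AddSub_qf (AddSub_cG W i 2) v * asF (W.map C) v 2 = C W.Δ * v i ^ 4 := by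
  have h := AddSub_b_relation_C W
  fin_cases i
  · have := AddSub_cert0 (C W.b₂) (C W.b₄) (C W.b₆) (C W.b₈) (v 0) (v 1) (v 2) h
    simpa [asF, AddSub_qf, AddSub_cG, map_b₂, map_b₄, map_b₆, map_b₈, WeierstrassCurve.Δ, map_ofNat]
      using this
  · have := AddSub_cert1 (C W.b₂) (C W.b₄) (C W.b₆) (C W.b₈) (v 0) (v 1) (v 2) h
    simpa [asF, AddSub_qf, AddSub_cG, map_b₂, map_b₄, map_b₆, map_b₈, WeierstrassCurve.Δ, map_ofNat]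
      using this
  · have := AddSub_cert2 (C W.b₂) (C W.b₄) (C W.b₆) (C W.b₈) (v 0) (v 1) (v 2) h
    simpa [asF, AddSub_qf, AddSub_cG, map_b₂, map_b₄, map_b₆, map_b₈, WeierstrassCurve.Δ, map_ofNat]
      using this

/-! ### the two main statements -/

theorem prim_asF (W : WeierstrassCurve k) (hΔ : W.Δ ≠ 0) {v : Fin 3 → k[X]} (hv : Prim v) :
    Prim (asF (W.map C) v) := by
  obtain ⟨c, hc⟩ := hv
  set I : Ideal k[X] := Ideal.span (Set.range (asF (W.map C) v)) with hI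
  have hmem : ∀ j, asF (W.map C) v j ∈ I := fun j => Ideal.subset_span ⟨j, rfl⟩
  have hpow : ∀ i, v i ∈ I.radical := by
    intro i
    refine ⟨4, ?_⟩
    have h1 : C W.Δ * v i ^ 4 ∈ I := by
      rw [← AddSub_cert W v i]
      exact I.add_mem (I.add_mem (I.mul_mem_left _ (hmem 0)) (I.mul_mem_left _ (hmem 1)))
        (I.mul_mem_left _ (hmem 2))
    have h2 : v i ^ 4 = C W.Δ⁻¹ * (C W.Δ * v i ^ 4) := by
      rw [← mul_assoc, ← C_mul, inv_mul_cancel₀ hΔ, C_1, one_mul]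
    rw [h2]
    exact I.mul_mem_left _ h1
  have h1 : (1 : k[X]) ∈ I.radical := by
    rw [← hc]
    exact Ideal.add_mem _ (Ideal.add_mem _ (Ideal.mul_mem_left _ _ (hpow 0))
      (Ideal.mul_mem_left _ _ (hpow 1))) (Ideal.mul_mem_left _ _ (hpow 2))
  have htop : I = ⊤ := by
    rw [← Ideal.radical_eq_top]
    exact (Ideal.eq_top_iff_one _).mpr h1
  have h1I : (1 : k[X]) ∈ I := by rw [htop]; trivial
  rw [hI, Ideal.mem_span_range_iff_exists_fun] at h1I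
  obtain ⟨d, hd⟩ := h1I
  refine ⟨d, ?_⟩
  rw [← hd, Fin.sum_univ_three]

theorem dmax3_asF (W : WeierstrassCurve k) (hΔ : W.Δ ≠ 0) (v : Fin 3 → k[X]) :
    dmax3 (asF (W.map C) v) = 2 * dmax3 v := by
  apply le_antisymm
  · refine AddSub_dmax3_le fun j => ?_
    rw [AddSub_asF_eq_qf]
    exact AddSub_natDegree_qf _ _
  · obtain ⟨i, hi⟩ := AddSub_exists_natDegree_eq_dmax3 v
    have hterm : ∀ j, (AddSub_qf (AddSub_cG W i j) v * asF (W.map C) v j).natDegree ≤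
        2 * dmax3 v + dmax3 (asF (W.map C) v) := fun j =>
      natDegree_mul_le.trans (add_le_add (AddSub_natDegree_qf _ _)
        (AddSub_natDegree_le_dmax3 _ j))
    have h1 : (C W.Δ * v i ^ 4).natDegree ≤ 2 * dmax3 v + dmax3 (asF (W.map C) v) := by
      rw [← AddSub_cert W v i]
      exact natDegree_add_le_of_degree_le
        (natDegree_add_le_of_degree_le (hterm 0) (hterm 1)) (hterm 2)
    rw [natDegree_C_mul hΔ, natDegree_pow, hi] at h1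
    omega

end

end Fermat.Agent.Lib.FrobCH
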