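import Fermat.Agent.Lib.FrobCH.Defs
import Fermat.Agent.S05.XOnly

/-!
# The addition-and-subtraction map on `x`-coordinates does what it claims (node N5)
-/

namespace Fermat.Agent.Lib.FrobCH

open WeierstrassCurve WeierstrassCurve.Affine
open Fermat.Agent.S05.XOnly

variable {L : Type*} [Field L]

/-- two triples are proportional -/
def AddSubGeom.Prop3 (v w : Fin 3 → L) : Prop := ∀ i j : Fin 3, v i * w j = v j * w i

lemma AddSubGeom.prop3_of_smul {v w : Fin 3 → L} (c : L) (h : ∀ i, v i = c * w i) :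
    AddSubGeom.Prop3 v w := by
  intro i j
  rw [h i, h j]
  ring

lemma AddSubGeom.sym2x_of_ne {W : Affine L} {P Q : W.Point} (hP : P ≠ 0) (hQ : Q ≠ 0) :
    P.sym2x Q = ![xc P * xc Q, xc P + xc Q, 1] := by
  cases P with
  | zero => exact absurd rfl hP
  | some x y h =>
    cases Q with
    | zero => exact absurd rfl hQ
    | some x' y' h' => simp

lemma AddSubGeom.sym2x_zero_right {W : Affine L} {P : W.Point} (hP : P ≠ 0) :
    P.sym2x 0 = ![xc P, 1, 0] := by
  cases P with
  | zero => exact absurd rfl hP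
  | some x y h => simp

lemma AddSubGeom.asF_self {W : Affine L} (x : L) :
    asF W ![x, 1, 0] = ![x * x, x + x, 1] := by
  funext i
  fin_cases i <;> simp [asF] <;> ring

/-- the diagonal case: `(2 P, 0)` -/
lemma AddSubGeom.prop3_double [DecidableEq L] {W : Affine L} {P : W.Point} (hP : P ≠ 0) :
    AddSubGeom.Prop3 (asF W ![xc P * xc P, xc P + xc P, 1]) ((2 • P).sym2x 0) := by
  have h0 : asF W ![xc P * xc P, xc P + xc P, 1] 0 =
      xc P ^ 4 - W.b₄ * xc P ^ 2 - 2 * W.b₆ * xc P - W.b₈ := by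
    simp [asF]; ring
  have h1 : asF W ![xc P * xc P, xc P + xc P, 1] 1 =
      4 * xc P ^ 3 + W.b₂ * xc P ^ 2 + 2 * W.b₄ * xc P + W.b₆ := by
    simp [asF]; ring
  have h2 : asF W ![xc P * xc P, xc P + xc P, 1] 2 = 0 := by
    simp [asF]; ring
  by_cases h : 2 • P = 0
  · have hη := (two_nsmul_eq_zero_iff hP).mp h
    have hsq := eta_sq hP
    rw [hη] at hsq
    have h1' : asF W ![xc P * xc P, xc P + xc P, 1] 1 = 0 := by
      rw [h1, ← hsq]; ring
    rw [h, Point.sym2x_zero_zero]
    intro i j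
    fin_cases i <;> fin_cases j <;> simp [h1', h2]
  · have hd := xc_two_nsmul hP h
    rw [AddSubGeom.sym2x_zero_right h]
    intro i j
    fin_cases i <;> fin_cases j <;> simp [h0, h1, h2] <;>
      first
        | linear_combination hd
        | linear_combination -hd

theorem asF_sym2x {L : Type*} [Field L] [DecidableEq L] (W : Affine L) (P Q : W.Point)
    (i j : Fin 3) :
    asF W (P.sym2x Q) i * (P + Q).sym2x (P - Q) j =
      asF W (P.sym2x Q) j * (P + Q).sym2x (P - Q) i := by
  suffices h : AddSubGeom.Prop3 (asF W (P.sym2x Q)) ((P + Q).sym2x (P - Q)) from h i j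
  by_cases hP : P = 0
  · subst hP
    rw [zero_add, zero_sub, Point.sym2x_neg_right]
    by_cases hQ : Q = 0
    · subst hQ
      rw [Point.sym2x_zero_zero]
      refine AddSubGeom.prop3_of_smul 1 fun i => ?_
      fin_cases i <;> simp [asF]
    · rw [Point.sym2x_comm, AddSubGeom.sym2x_zero_right hQ, AddSubGeom.sym2x_of_ne hQ hQ,
        AddSubGeom.asF_self]
      exact AddSubGeom.prop3_of_smul 1 fun i => (one_mul _).symm
  by_cases hQ : Q = 0
  · subst hQ
    rw [add_zero, sub_zero, AddSubGeom.sym2x_zero_right hP, AddSubGeom.sym2x_of_ne hP hP,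
      AddSubGeom.asF_self]
    exact AddSubGeom.prop3_of_smul 1 fun i => (one_mul _).symm
  rw [AddSubGeom.sym2x_of_ne hP hQ]
  by_cases hx : xc P = xc Q
  · rcases eq_or_eq_neg_of_xc_eq hP hQ hx with rfl | rfl
    · rw [sub_self, ← two_nsmul P]
      exact AddSubGeom.prop3_double hP
    · have hQ' : Q ≠ 0 := hQ
      rw [neg_add_cancel, Point.sym2x_comm, xc_neg]
      have : -Q - Q = -(2 • Q) := by rw [two_nsmul]; abel
      rw [this, Point.sym2x_neg_left]
      exact AddSubGeom.prop3_double hQ'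
  · have hs := xc_add_add_xc_sub hP hQ hx
    have hm := xc_add_mul_xc_sub hP hQ hx
    rw [AddSubGeom.sym2x_of_ne (add_ne_zero_of_xc_ne hx) (sub_ne_zero_of_xc_ne hx)]
    refine AddSubGeom.prop3_of_smul ((xc P - xc Q) ^ 2) fun i => ?_
    fin_cases i
    · simp [asF]; linear_combination -hm
    · simp [asF]; linear_combination -hs
    · simp [asF]; ring

end Fermat.Agent.Lib.FrobCH
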