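import Fermat.Agent.Lib.FrobCH.Defs

/-!
# Frobenius Cayley-Hamilton library, node N11: points of height `0` are constant.
-/

set_option linter.unusedSectionVars false

namespace Fermat.Agent.Lib.FrobCH

open Polynomial WeierstrassCurve WeierstrassCurve.Affine

noncomputable section

variable {k : Type*} [Field k]

/-- local copy of the easy direction of `hdeg_eq_zero_iff` -/
theorem Const_exists_C_of_hdeg_eq_zero (x : RatFunc k) (h : hdeg x = 0) :
    ∃ c : k, x = RatFunc.C c := by
  unfold hdeg at h
  have h1 : x.num.natDegree = 0 := by omega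
  have h2 : x.denom.natDegree = 0 := by omega
  obtain ⟨a, ha⟩ := natDegree_eq_zero.1 h1
  obtain ⟨b, hb⟩ := natDegree_eq_zero.1 h2
  refine ⟨a / b, ?_⟩
  rw [← RatFunc.num_div_denom x, ← ha, ← hb, map_div₀]
  rfl

/-- local copy of `hgt_some` -/
theorem Const_hgt_some {L : Type*} [Field L] [Algebra (RatFunc k) L] {W : Affine L}
    (r : RatFunc k) {y' : L} (h : W.Nonsingular (algebraMap (RatFunc k) L r) y') :
    hgt k (Point.some _ _ h) = hdeg r := by
  classical
  have hex : ∃ r' : RatFunc k, algebraMap (RatFunc k) L r' = algebraMap (RatFunc k) L r :=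
    ⟨r, rfl⟩
  have h1 : hgt k (Point.some _ _ h) = hdeg hex.choose := by
    unfold hgt
    exact dif_pos hex
  rw [h1, (algebraMap (RatFunc k) L).injective hex.choose_spec]

/-- transport of a point along equalities of coordinates -/
theorem Const_some_congr {L : Type*} [Field L] {W : Affine L} {x x' y y' : L}
    (h : W.Nonsingular x y) (hx : x = x') (hy : y = y') :
    ∃ h' : W.Nonsingular x' y', Point.some x y h = Point.some x' y' h' := by
  subst hx hy
  exact ⟨h, rfl⟩

/-- the parity argument: `Y² f = e` with `f` a cubic forces `Y = 0` -/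
theorem Const_eq_zero_of_sq_mul (A B e : k) (Y : RatFunc k)
    (h : Y ^ 2 * algebraMap k[X] (RatFunc k) (fpol A B) = RatFunc.C e) : Y = 0 := by
  by_contra hY
  have hr : Y.num ≠ 0 := RatFunc.num_ne_zero hY
  have hs : Y.denom ≠ 0 := Y.denom_ne_zero
  have hsF : algebraMap k[X] (RatFunc k) Y.denom ≠ 0 := RatFunc.algebraMap_ne_zero hs
  have hdeg : (fpol A B).natDegree = 3 := by
    unfold fpol
    compute_degree!
  have hf0 : fpol A B ≠ 0 := by
    intro h0
    rw [h0] at hdeg
    simp at hdeg
  have h1 : Y.num ^ 2 * fpol A B = C e * Y.denom ^ 2 := by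
    apply RatFunc.algebraMap_injective k
    rw [map_mul, map_mul, map_pow, map_pow]
    have h2 : algebraMap k[X] (RatFunc k) (C e) = RatFunc.C e := rfl
    have h4 : Y * algebraMap k[X] (RatFunc k) Y.denom = algebraMap k[X] (RatFunc k) Y.num := by
      have h5 := RatFunc.num_div_denom Y
      rw [div_eq_iff hsF] at h5
      exact h5.symm
    rw [h2, ← h, ← h4]
    ring
  have h3 := congrArg natDegree h1
  rw [natDegree_mul (pow_ne_zero 2 hr) hf0, natDegree_pow, hdeg] at h3
  rcases eq_or_ne e 0 with rfl | he
  · simp at h3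
  · rw [natDegree_C_mul he, natDegree_pow] at h3
    omega

section Group

variable (A B : k) {L : Type*} [Field L] [DecidableEq L] [Algebra k L] [Algebra (RatFunc k) L]
  [IsScalarTower k (RatFunc k) L] {y : L} (hy : y ^ 2 = pol L (fpol A B))

include hy in
theorem const_of_hgt_eq_zero {P : ((shortW A B)⁄L).Point} (hP : InG A B y P)
    (h0 : hgt k P = 0) : IsConst P := by
  rcases hP with rfl | ⟨x, Y, h, rfl⟩
  · exact Or.inl rfl
  rw [Const_hgt_some] at h0
  obtain ⟨c, rfl⟩ := Const_exists_C_of_hdeg_eq_zero x h0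
  have hc : algebraMap (RatFunc k) L (RatFunc.C c) = algebraMap k L c := by
    rw [IsScalarTower.algebraMap_apply k (RatFunc k) L]
    rfl
  have heq := h.1
  rw [Affine.equation_iff] at heq
  have hA : algebraMap k L A = algebraMap (RatFunc k) L (RatFunc.C A) := by
    rw [IsScalarTower.algebraMap_apply k (RatFunc k) L]
    rfl
  have hB : algebraMap k L B = algebraMap (RatFunc k) L (RatFunc.C B) := by
    rw [IsScalarTower.algebraMap_apply k (RatFunc k) L]
    rfl
  have h1 : algebraMap (RatFunc k) L (Y ^ 2 * algebraMap k[X] (RatFunc k) (fpol A B))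
      = algebraMap (RatFunc k) L (RatFunc.C (c ^ 3 + A * c + B)) := by
    have h2 : (algebraMap (RatFunc k) L Y * y) ^ 2
        = algebraMap (RatFunc k) L (RatFunc.C c) ^ 3
          + algebraMap k L A * algebraMap (RatFunc k) L (RatFunc.C c) + algebraMap k L B := by
      simpa [shortW] using heq
    rw [mul_pow, hy, hA, hB] at h2
    rw [map_mul, map_pow]
    simp only [map_add, map_mul, map_pow]
    exact h2
  have hY : Y = 0 := Const_eq_zero_of_sq_mul A B _ Y ((algebraMap (RatFunc k) L).injective h1)
  right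
  obtain ⟨h', hh'⟩ := Const_some_congr h hc
    (show algebraMap (RatFunc k) L Y * y = algebraMap k L 0 by rw [hY]; simp)
  exact ⟨c, 0, h', hh'⟩

end Group

end

end Fermat.Agent.Lib.FrobCH
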