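import Fermat.Agent.Lib.FrobCH.Defs

/-!
# Point count of `y² = x³ + A x + B` over a finite field by the fibres of `x`
-/

namespace Fermat.Agent.Lib.FrobCH

open Polynomial WeierstrassCurve WeierstrassCurve.Affine

noncomputable section

variable {k : Type*} [Field k]

/-- the equation of the short Weierstrass curve -/
lemma countCard_equation_iff (A B x y : k) :
    (shortW A B).toAffine.Equation x y ↔ y ^ 2 = (fpol A B).eval x := by
  rw [Affine.equation_iff]
  simp [shortW, fpol]

/-- the points as the origin together with the solutions of `y² = f(c)` -/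
def countCardEquiv (A B : k) (hΔ : (shortW A B).Δ ≠ 0) :
    (shortW A B).toAffine.Point ≃ Option (Σ c : k, {y : k // y ^ 2 = (fpol A B).eval c}) where
  toFun
    | .zero => none
    | .some x y h => some ⟨x, y, (countCard_equation_iff A B x y).1 h.1⟩
  invFun
    | none => .zero
    | some ⟨x, y, h⟩ => .some x y
        ((Affine.equation_iff_nonsingular_of_Δ_ne_zero (W := (shortW A B).toAffine) hΔ).1
          ((countCard_equation_iff A B x y).2 h))
  left_inv P := by
    cases P <;> rfl
  right_inv P := by
    rcases P with _ | ⟨x, y, h⟩ <;> rfl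

/-- the number of square roots -/
lemma countCard_fibre [Finite k] (h2 : (2 : k) ≠ 0) (A B c : k) :
    Nat.card {y : k // y ^ 2 = (fpol A B).eval c} + ecan A B c = 2 := by
  classical
  set e := (fpol A B).eval c with he
  unfold ecan
  rw [← he]
  by_cases h0 : e = 0
  · rw [if_pos h0]
    have : Nat.card {y : k // y ^ 2 = e} = 1 := by
      rw [Nat.card_eq_one_iff_unique]
      refine ⟨⟨fun a b => ?_⟩, ⟨⟨0, by simp [h0]⟩⟩⟩
      have ha : a.1 = 0 := (pow_eq_zero_iff two_ne_zero).1 (a.2.trans h0)
      have hb : b.1 = 0 := (pow_eq_zero_iff two_ne_zero).1 (b.2.trans h0)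
      exact Subtype.ext (ha.trans hb.symm)
    omega
  · rw [if_neg h0]
    by_cases hs : IsSquare e
    · rw [if_pos hs]
      obtain ⟨s, hs⟩ := hs
      have hs0 : s ≠ 0 := by
        rintro rfl
        exact h0 (by simpa using hs)
      have hne : s ≠ -s := by
        intro h
        have h' : (2 : k) * s = 0 := by
          have : s + s = 0 := by
            nth_rewrite 1 [h]
            simp
          rw [two_mul]; exact this
        rcases mul_eq_zero.1 h' with h' | h'
        · exact h2 h'
        · exact hs0 h'
      have : Nat.card {y : k // y ^ 2 = e} = 2 := by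
        have hset : {y : k | y ^ 2 = e} = ({s, -s} : Finset k) := by
          ext y
          simp only [Finset.coe_insert, Finset.coe_singleton,
            Set.mem_insert_iff, Set.mem_singleton_iff]
          change y ^ 2 = e ↔ _
          rw [hs, ← sq, sq_eq_sq_iff_eq_or_eq_neg]
        have h1 : Nat.card {y : k // y ^ 2 = e} = Nat.card ({y : k | y ^ 2 = e} : Set k) := rfl
        rw [h1, hset, Nat.card_coe_set_eq, Set.ncard_coe_finset, Finset.card_pair hne]
      omega
    · rw [if_neg hs]
      have : Nat.card {y : k // y ^ 2 = e} = 0 := by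
        have : IsEmpty {y : k // y ^ 2 = e} := ⟨fun y => hs ⟨y.1, by rw [← sq]; exact y.2.symm⟩⟩
        exact Nat.card_of_isEmpty
      omega

theorem card_add_sum_ecan [Fintype k] (h2 : (2 : k) ≠ 0) (A B : k) (hΔ : (shortW A B).Δ ≠ 0) :
    Nat.card (shortW A B).toAffine.Point + ∑ c : k, ecan A B c = 2 * Fintype.card k + 1 := by
  classical
  rw [Nat.card_congr (countCardEquiv A B hΔ), Finite.card_option, Nat.card_sigma]
  have hsum : ∑ c : k, (Nat.card {y : k // y ^ 2 = (fpol A B).eval c} + ecan A B c)
      = 2 * Fintype.card k := by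
    rw [Finset.sum_congr rfl fun c _ => countCard_fibre h2 A B c]
    simp [mul_comm]
  rw [Finset.sum_add_distrib] at hsum
  omega

end

end Fermat.Agent.Lib.FrobCH
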