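import Fermat.Agent.Lib.FrobCH.Defs

/-!
# The degree of Manin's fraction (node N10b of the Frobenius Cayley-Hamilton project)

For `f = X³ + A X + B` over a finite field `k` with `q` elements, `q` odd, the rational function
`Rex A B X = f (f^((q-1)/2) + 1)² / (X^q - X)² - X^q - X` has height `2 q + 1 - ∑ c, ecan A B c`.
-/

namespace Fermat.Agent.Lib.FrobCH

open Polynomial WeierstrassCurve WeierstrassCurve.Affine

noncomputable section

variable {k : Type*} [Field k]


/-- height of a reduced fraction (local copy of the height lemma, kept under a prefixed name) -/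
theorem countDeg_hdeg_div {a b : k[X]} (hb : b ≠ 0) (hab : IsCoprime a b) :
    hdeg (algebraMap k[X] (RatFunc k) a / algebraMap k[X] (RatFunc k) b) = dmax a b := by
  set x : RatFunc k := algebraMap k[X] (RatFunc k) a / algebraMap k[X] (RatFunc k) b with hx
  have hinj : Function.Injective (algebraMap k[X] (RatFunc k)) :=
    IsFractionRing.injective k[X] (RatFunc k)
  have hb' : algebraMap k[X] (RatFunc k) b ≠ 0 := by
    intro h
    exact hb (hinj (by rw [h, map_zero]))
  have hd : x.denom ≠ 0 := x.denom_ne_zero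
  have hd' : algebraMap k[X] (RatFunc k) x.denom ≠ 0 := by
    intro h
    exact hd (hinj (by rw [h, map_zero]))
  have h1 : x.num ∣ a := RatFunc.num_div_dvd a hb
  have h2 : x.denom ∣ b := RatFunc.denom_div_dvd a b
  have hcross : x.num * b = a * x.denom := by
    apply hinj
    have h := RatFunc.num_div_denom x
    rw [hx, div_eq_div_iff hd' hb'] at h
    rw [map_mul, map_mul]
    exact h
  have h3 : a ∣ x.num := by
    have : a ∣ x.num * b := ⟨x.denom, hcross⟩
    exact hab.dvd_of_dvd_mul_right this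
  have h4 : b ∣ x.denom := by
    have : b ∣ a * x.denom := ⟨x.num, by rw [← hcross, mul_comm]⟩
    exact hab.symm.dvd_of_dvd_mul_left this
  have e1 : x.num.natDegree = a.natDegree :=
    Polynomial.natDegree_eq_of_degree_eq (Polynomial.degree_eq_degree_of_associated
      (associated_of_dvd_dvd h1 h3))
  have e2 : x.denom.natDegree = b.natDegree :=
    Polynomial.natDegree_eq_of_degree_eq (Polynomial.degree_eq_degree_of_associated
      (associated_of_dvd_dvd h2 h4))
  unfold hdeg dmax
  rw [e1, e2]

/-- `X ^ q - X` is the product of all `X - c`. -/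
theorem countDeg_prod_X_sub_C [Fintype k] :
    ∏ c : k, (X - C c) = (X ^ Fintype.card k - X : k[X]) := by
  have hmon : (X ^ Fintype.card k - X : k[X]).Monic := by
    apply Polynomial.monic_X_pow_sub
    rw [degree_X]
    exact_mod_cast Fintype.one_lt_card
  have h := Polynomial.prod_multiset_X_sub_C_of_monic_of_roots_card_eq hmon (by
    rw [FiniteField.roots_X_pow_card_sub_X,
      FiniteField.X_pow_card_sub_X_natDegree_eq k Fintype.one_lt_card]
    rfl)
  rw [FiniteField.roots_X_pow_card_sub_X] at h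
  exact h


/-- the numerator of Manin's fraction -/
def countDegN [Fintype k] (A B : k) : k[X] :=
  fpol A B * (fpol A B ^ ((Fintype.card k - 1) / 2) + 1) ^ 2
    - (X ^ Fintype.card k + X) * (X ^ Fintype.card k - X) ^ 2

theorem countDeg_Rex_eq [Fintype k] (A B : k) :
    Rex A B (RatFunc.X : RatFunc k) =
      algebraMap k[X] (RatFunc k) (countDegN A B) /
        algebraMap k[X] (RatFunc k) ((X ^ Fintype.card k - X) ^ 2) := by
  have hinj : Function.Injective (algebraMap k[X] (RatFunc k)) :=
    IsFractionRing.injective k[X] (RatFunc k)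
  have hne : algebraMap k[X] (RatFunc k) ((X ^ Fintype.card k - X) ^ 2) ≠ 0 := by
    intro h
    have h0 : ((X ^ Fintype.card k - X) ^ 2 : k[X]) = 0 := hinj (by rw [h, map_zero])
    exact FiniteField.X_pow_card_sub_X_ne_zero k Fintype.one_lt_card (pow_eq_zero_iff (two_ne_zero) |>.mp h0)
  have hf : (RatFunc.X : RatFunc k) ^ 3 + algebraMap k (RatFunc k) A * RatFunc.X
      + algebraMap k (RatFunc k) B = algebraMap k[X] (RatFunc k) (fpol A B) := by
    simp only [fpol, map_add, map_mul, map_pow, RatFunc.algebraMap_X, RatFunc.algebraMap_C,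
      RatFunc.algebraMap_eq_C]
  unfold Rex
  rw [hf, eq_div_iff hne]
  have hD : algebraMap k[X] (RatFunc k) ((X ^ Fintype.card k - X) ^ 2)
      = ((RatFunc.X : RatFunc k) ^ Fintype.card k - RatFunc.X) ^ 2 := by
    simp only [map_sub, map_pow, RatFunc.algebraMap_X]
  rw [hD] at hne ⊢
  have hN : algebraMap k[X] (RatFunc k) (countDegN A B) =
      algebraMap k[X] (RatFunc k) (fpol A B) *
        (algebraMap k[X] (RatFunc k) (fpol A B) ^ ((Fintype.card k - 1) / 2) + 1) ^ 2
      - ((RatFunc.X : RatFunc k) ^ Fintype.card k + RatFunc.X) *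
        ((RatFunc.X : RatFunc k) ^ Fintype.card k - RatFunc.X) ^ 2 := by
    simp only [countDegN, map_sub, map_add, map_mul, map_pow, map_one, RatFunc.algebraMap_X]
  rw [hN, sub_mul, sub_mul, div_mul_cancel₀ _ hne]
  ring


theorem countDeg_ringChar_ne_two (h2 : (2 : k) ≠ 0) : ringChar k ≠ 2 := by
  intro h
  apply h2
  have := ringChar.Nat.cast_ringChar (R := k)
  rw [h] at this
  exact_mod_cast this

theorem countDeg_card_eq [Fintype k] (h2 : (2 : k) ≠ 0) :
    Fintype.card k = 2 * ((Fintype.card k - 1) / 2) + 1 ∧ 1 ≤ (Fintype.card k - 1) / 2 ∧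
      Fintype.card k / 2 = (Fintype.card k - 1) / 2 := by
  have h1 := FiniteField.odd_card_of_char_ne_two (countDeg_ringChar_ne_two h2)
  have h3 : 1 < Fintype.card k := Fintype.one_lt_card
  omega

theorem countDeg_fpol_natDegree_le (A B : k) : (fpol A B).natDegree ≤ 3 := by
  unfold fpol
  compute_degree

theorem countDeg_fpol_pow_card [Fintype k] (A B : k) :
    fpol A B ^ Fintype.card k = X ^ (3 * Fintype.card k) + C A * X ^ Fintype.card k + C B := by
  rw [← FiniteField.expand_card]
  simp only [fpol, map_add, map_mul, map_pow, expand_X, expand_C]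
  ring

theorem countDegN_eq [Fintype k] (h2 : (2 : k) ≠ 0) (A B : k) :
    countDegN A B = X ^ (2 * Fintype.card k + 1) +
      (C A * X ^ Fintype.card k + C B + 2 * fpol A B ^ ((Fintype.card k - 1) / 2 + 1) + fpol A B
        + X ^ (Fintype.card k + 2) - X ^ 3) := by
  obtain ⟨hq, -, -⟩ := countDeg_card_eq h2
  have h1 : fpol A B * (fpol A B ^ ((Fintype.card k - 1) / 2) + 1) ^ 2 =
      fpol A B ^ Fintype.card k + 2 * fpol A B ^ ((Fintype.card k - 1) / 2 + 1) + fpol A B := by
    have h0 : fpol A B ^ Fintype.card k = fpol A B ^ (2 * ((Fintype.card k - 1) / 2) + 1) := by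
      rw [← hq]
    rw [h0]
    generalize (Fintype.card k - 1) / 2 = m
    ring
  unfold countDegN
  rw [h1, countDeg_fpol_pow_card]
  ring

theorem countDegN_monic_natDegree [Fintype k] (h2 : (2 : k) ≠ 0) (A B : k) :
    (countDegN A B).Monic ∧ (countDegN A B).natDegree = 2 * Fintype.card k + 1 := by
  obtain ⟨hq, hm, -⟩ := countDeg_card_eq h2
  have hR : (C A * X ^ Fintype.card k + C B + 2 * fpol A B ^ ((Fintype.card k - 1) / 2 + 1)
      + fpol A B + X ^ (Fintype.card k + 2) - X ^ 3 : k[X]).natDegree ≤ 2 * Fintype.card k := by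
    have hf := countDeg_fpol_natDegree_le A B
    have hfp : (fpol A B ^ ((Fintype.card k - 1) / 2 + 1)).natDegree ≤ 2 * Fintype.card k := by
      refine (natDegree_pow_le).trans ?_
      calc ((Fintype.card k - 1) / 2 + 1) * (fpol A B).natDegree
          ≤ ((Fintype.card k - 1) / 2 + 1) * 3 := Nat.mul_le_mul_left _ hf
        _ ≤ 2 * Fintype.card k := by omega
    have hf' : (fpol A B).natDegree ≤ 2 * Fintype.card k := by omega
    refine (natDegree_sub_le _ _).trans (max_le (natDegree_add_le_of_degree_le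
      (natDegree_add_le_of_degree_le
      (natDegree_add_le_of_degree_le (natDegree_add_le_of_degree_le ?_ ?_) ?_) hf') ?_) ?_)
    · refine (natDegree_C_mul_le _ _).trans ?_
      rw [natDegree_X_pow]; omega
    · rw [natDegree_C]; omega
    · have : (2 : k[X]) = C 2 := (map_ofNat C 2).symm
      rw [this]
      exact (natDegree_C_mul_le _ _).trans hfp
    · rw [natDegree_X_pow]; omega
    · rw [natDegree_X_pow]; omega
  have hdeg : (C A * X ^ Fintype.card k + C B + 2 * fpol A B ^ ((Fintype.card k - 1) / 2 + 1)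
      + fpol A B + X ^ (Fintype.card k + 2) - X ^ 3 : k[X]).degree
        < ((2 * Fintype.card k + 1 : ℕ) : WithBot ℕ) := by
    refine lt_of_le_of_lt (degree_le_of_natDegree_le hR) ?_
    exact_mod_cast Nat.lt_succ_self _
  rw [countDegN_eq h2]
  refine ⟨monic_X_pow_add hdeg, ?_⟩
  rw [natDegree_add_eq_left_of_natDegree_lt]
  · rw [natDegree_X_pow]
  · rw [natDegree_X_pow]; omega


theorem countDeg_X_sub_C_dvd [Fintype k] (c : k) :
    (X - C c) ∣ (X ^ Fintype.card k - X : k[X]) := by
  rw [dvd_iff_isRoot]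
  simp [IsRoot, FiniteField.pow_card]

theorem countDeg_sq_dvd_tail [Fintype k] (c : k) :
    (X - C c) ^ 2 ∣ ((X ^ Fintype.card k + X) * (X ^ Fintype.card k - X) ^ 2 : k[X]) :=
  Dvd.dvd.mul_left (pow_dvd_pow_of_dvd (countDeg_X_sub_C_dvd c) 2) _

theorem countDeg_pow_ecan_dvd [Fintype k] (h2 : (2 : k) ≠ 0) (A B c : k) :
    (X - C c) ^ ecan A B c ∣ countDegN A B := by
  obtain ⟨-, -, hq2⟩ := countDeg_card_eq h2
  unfold ecan countDegN
  split_ifs with h0 hs
  · rw [pow_one]
    exact dvd_sub (Dvd.dvd.mul_right (dvd_iff_isRoot.2 h0) _)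
      ((dvd_pow_self _ two_ne_zero).trans (countDeg_sq_dvd_tail c))
  · rw [pow_zero]
    exact one_dvd _
  · refine dvd_sub (Dvd.dvd.mul_left (pow_dvd_pow_of_dvd ?_ 2) _) (countDeg_sq_dvd_tail c)
    rw [dvd_iff_isRoot]
    have hchar := countDeg_ringChar_ne_two h2
    rcases FiniteField.pow_dichotomy hchar h0 with h | h
    · exact absurd ((FiniteField.isSquare_iff hchar h0).2 h) hs
    · rw [hq2] at h
      simp [IsRoot, h]

theorem countDeg_disc_eq_zero (A B c : k) (h0 : (fpol A B).eval c = 0)
    (h1 : (derivative (fpol A B)).eval c = 0) : (shortW A B).Δ = 0 := by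
  have e0 : c ^ 3 + A * c + B = 0 := by simpa [fpol] using h0
  have e1 : (2 + 1) * c ^ 2 + A = 0 := by simpa [fpol] using h1
  have hA : A = -3 * c ^ 2 := by linear_combination e1
  have hB : B = 2 * c ^ 3 := by linear_combination e0 - c * e1
  simp only [shortW, WeierstrassCurve.Δ, WeierstrassCurve.b₂, WeierstrassCurve.b₄,
    WeierstrassCurve.b₆, WeierstrassCurve.b₈]
  rw [hA, hB]
  ring

theorem countDeg_not_pow_succ_dvd [Fintype k] (h2 : (2 : k) ≠ 0) (A B : k)
    (hΔ : (shortW A B).Δ ≠ 0) (c : k) (hc : ecan A B c < 2) :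
    ¬ (X - C c) ^ (ecan A B c + 1) ∣ countDegN A B := by
  obtain ⟨-, hm, hq2⟩ := countDeg_card_eq h2
  unfold ecan at hc ⊢
  split_ifs at hc ⊢ with h0 hs
  · intro hdvd
    have h1 : (X - C c) ^ 2 ∣ fpol A B * (fpol A B ^ ((Fintype.card k - 1) / 2) + 1) ^ 2 := by
      have := dvd_add hdvd (countDeg_sq_dvd_tail c)
      unfold countDegN at this
      rwa [sub_add_cancel] at this
    have hcop : IsCoprime (X - C c) (fpol A B ^ ((Fintype.card k - 1) / 2) + 1) := by
      rw [(irreducible_X_sub_C c).coprime_iff_not_dvd, dvd_iff_isRoot]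
      have : (0 : k) ^ ((Fintype.card k - 1) / 2) = 0 := zero_pow (by omega)
      simp [IsRoot, h0, this]
    have h3 : (X - C c) ^ 2 ∣ fpol A B := (hcop.pow (m := 2) (n := 2)).dvd_of_dvd_mul_right h1
    obtain ⟨h, hh⟩ := h3
    apply hΔ
    apply countDeg_disc_eq_zero A B c h0
    rw [hh]
    simp [derivative_mul, derivative_pow]
  · intro hdvd
    rw [zero_add, pow_one, dvd_iff_isRoot] at hdvd
    have hchar := countDeg_ringChar_ne_two h2
    have h1 := (FiniteField.isSquare_iff hchar h0).1 hs
    rw [hq2] at h1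
    have : (countDegN A B).eval c = (fpol A B).eval c * (1 + 1) ^ 2 := by
      simp [countDegN, h1, FiniteField.pow_card]
    rw [IsRoot, this] at hdvd
    have h11 : (1 + 1 : k) = 2 := by norm_num
    rw [h11] at hdvd
    exact (mul_ne_zero h0 (pow_ne_zero 2 h2)) hdvd
  · omega

theorem countDeg_ecan_le (A B c : k) : ecan A B c ≤ 2 := by
  unfold ecan
  split_ifs <;> omega

/-- **Degree of Manin's fraction**: the height of the `x`-coordinate of `frob η - η` plus the total
cancellation is `2 q + 1`. -/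
theorem hdeg_Rex_X_add_sum_ecan [Fintype k] (h2 : (2 : k) ≠ 0) (A B : k)
    (hΔ : (shortW A B).Δ ≠ 0) :
    hdeg (Rex A B (RatFunc.X : RatFunc k)) + ∑ c : k, ecan A B c = 2 * Fintype.card k + 1 := by
  classical
  set g : k[X] := ∏ c : k, (X - C c) ^ ecan A B c with hg
  set D' : k[X] := ∏ c : k, (X - C c) ^ (2 - ecan A B c) with hD'
  have hgD : g * D' = (X ^ Fintype.card k - X) ^ 2 := by
    rw [← countDeg_prod_X_sub_C, ← Finset.prod_pow, hg, hD', ← Finset.prod_mul_distrib]
    refine Finset.prod_congr rfl fun c _ => ?_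
    rw [← pow_add]
    congr 1
    have := countDeg_ecan_le A B c
    omega
  have hgN : g ∣ countDegN A B := by
    refine Finset.prod_dvd_of_coprime ?_ fun c _ => countDeg_pow_ecan_dvd h2 A B c
    intro a _ b _ hab
    exact (pairwise_coprime_X_sub_C (s := fun c : k => c) Function.injective_id hab).pow
  obtain ⟨N', hN'⟩ := hgN
  have hcop : IsCoprime N' D' := by
    refine IsCoprime.prod_right fun c _ => ?_
    by_cases hc : ecan A B c < 2
    · refine IsCoprime.pow_right ?_
      refine IsCoprime.symm ?_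
      rw [(irreducible_X_sub_C c).coprime_iff_not_dvd]
      intro hdvd
      apply countDeg_not_pow_succ_dvd h2 A B hΔ c hc
      rw [hN', pow_succ]
      exact mul_dvd_mul (Finset.dvd_prod_of_mem (fun c : k => (X - C c) ^ ecan A B c)
        (Finset.mem_univ c)) hdvd
    · have h : 2 - ecan A B c = 0 := by omega
      rw [h, pow_zero]
      exact isCoprime_one_right
  have hgmon : g.Monic := monic_prod_of_monic _ _ fun c _ => (monic_X_sub_C c).pow _
  have hDmon : D'.Monic := monic_prod_of_monic _ _ fun c _ => (monic_X_sub_C c).pow _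
  have hgdeg : g.natDegree = ∑ c : k, ecan A B c := by
    rw [hg, natDegree_prod_of_monic _ _ fun c _ => (monic_X_sub_C c).pow _]
    refine Finset.sum_congr rfl fun c _ => ?_
    rw [natDegree_pow, natDegree_X_sub_C, mul_one]
  have hg0 : g ≠ 0 := hgmon.ne_zero
  have hD0 : D' ≠ 0 := hDmon.ne_zero
  obtain ⟨hNmon, hNdeg⟩ := countDegN_monic_natDegree h2 A B
  have hN0 : N' ≠ 0 := by
    rintro rfl
    rw [mul_zero] at hN'
    exact hNmon.ne_zero hN'
  have d1 : g.natDegree + N'.natDegree = 2 * Fintype.card k + 1 := by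
    rw [← natDegree_mul hg0 hN0, ← hN', hNdeg]
  have d2 : g.natDegree + D'.natDegree = 2 * Fintype.card k := by
    rw [← natDegree_mul hg0 hD0, hgD, natDegree_pow,
      FiniteField.X_pow_card_sub_X_natDegree_eq k Fintype.one_lt_card]
  have hinj : Function.Injective (algebraMap k[X] (RatFunc k)) :=
    IsFractionRing.injective k[X] (RatFunc k)
  have hg' : algebraMap k[X] (RatFunc k) g ≠ 0 := by
    intro h
    exact hg0 (hinj (by rw [h, map_zero]))
  have hR : Rex A B (RatFunc.X : RatFunc k) =
      algebraMap k[X] (RatFunc k) N' / algebraMap k[X] (RatFunc k) D' := by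
    rw [countDeg_Rex_eq, ← hgD, hN', map_mul, map_mul, mul_div_mul_left _ _ hg']
  rw [hR, countDeg_hdeg_div hD0 hcop, ← hgdeg]
  unfold dmax
  omega

end

end Fermat.Agent.Lib.FrobCH
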