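import Mathlib

/-!
# Cayley-Hamilton for the Frobenius endomorphism of an elliptic curve over a finite field,
from the point count (Manin's elementary method): definitions.

`k` is the field of constants, `RatFunc k` the rational function field, and heights are
degrees of rational functions.
-/

namespace Fermat.Agent.Lib.FrobCH

open Polynomial WeierstrassCurve WeierstrassCurve.Affine

noncomputable section

variable {k : Type*} [Field k]

/-- the maximum of the degrees of a pair of polynomials -/
def dmax (a b : k[X]) : ℕ := max a.natDegree b.natDegree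

/-- the degree (height) of a rational function -/
def hdeg (x : RatFunc k) : ℕ := max x.num.natDegree x.denom.natDegree

/-- the maximum of the degrees of a triple of polynomials -/
def dmax3 (v : Fin 3 → k[X]) : ℕ := max (v 0).natDegree (max (v 1).natDegree (v 2).natDegree)

/-- a triple of polynomials generating the unit ideal -/
def Prim (v : Fin 3 → k[X]) : Prop :=
  ∃ c : Fin 3 → k[X], c 0 * v 0 + c 1 * v 1 + c 2 * v 2 = 1

/-- the symmetric product of two points `(a₁ : b₁)`, `(a₂ : b₂)` of the projective line -/
def sym {R : Type*} [CommRing R] (a₁ b₁ a₂ b₂ : R) : Fin 3 → R :=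
  ![a₁ * a₂, a₁ * b₂ + a₂ * b₁, b₁ * b₂]

/-- the three quadratic forms of the addition-and-subtraction map on `x`-coordinates,
as plain functions (this is `WeierstrassCurve.addSubMap` evaluated) -/
def asF {R : Type*} [CommRing R] (W : WeierstrassCurve R) (v : Fin 3 → R) : Fin 3 → R :=
  ![v 0 ^ 2 - W.b₄ * v 0 * v 2 - W.b₆ * v 1 * v 2 - W.b₈ * v 2 ^ 2,
    2 * v 1 * v 0 + W.b₂ * v 0 * v 2 + W.b₄ * v 1 * v 2 + W.b₆ * v 2 ^ 2,
    v 1 ^ 2 - 4 * v 0 * v 2]

/-- the canonical map from polynomials to an extension `L` of the rational function field -/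
def pol (L : Type*) [Field L] [Algebra (RatFunc k) L] : k[X] →+* L :=
  (algebraMap (RatFunc k) L).comp (algebraMap k[X] (RatFunc k))

/-- `(a : b)` is a coprime polynomial representative of the `x`-coordinate of `P`. -/
def IsX {L : Type*} [Field L] [Algebra (RatFunc k) L] {W : Affine L} (P : W.Point)
    (a b : k[X]) : Prop :=
  IsCoprime a b ∧ P.xRep 0 * pol L b = P.xRep 1 * pol L a

/-- the height of a point: the degree of its `x`-coordinate if the latter is a rational function
(junk value `0` otherwise); the height of the origin is `0`. -/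
def hgt (k : Type*) [Field k] {L : Type*} [Field L] [Algebra (RatFunc k) L] {W : Affine L} :
    W.Point → ℕ
  | .zero => 0
  | .some x _ _ =>
    open Classical in
    if h : ∃ r : RatFunc k, algebraMap (RatFunc k) L r = x then hdeg h.choose else 0

/-- the short Weierstrass curve `y² = x³ + A x + B` -/
def shortW {R : Type*} [CommRing R] (A B : R) : WeierstrassCurve R := ⟨0, 0, 0, A, B⟩

/-- the cubic `x³ + A x + B` -/
def fpol (A B : k) : k[X] := X ^ 3 + C A * X + C B

/-- the "odd" points of `y² = x³ + A x + B` over `L ∋ y`, `y² = f(X)`: the origin and the points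
`(x, Y * y)` with `x Y : RatFunc k`. -/
def InG (A B : k) {L : Type*} [Field L] [Algebra k L] [Algebra (RatFunc k) L] (y : L)
    (P : ((shortW A B)⁄L).Point) : Prop :=
  P = 0 ∨ ∃ (x Y : RatFunc k) (h : ((shortW A B)⁄L).Nonsingular
      (algebraMap (RatFunc k) L x) (algebraMap (RatFunc k) L Y * y)), P = .some _ _ h

/-- a point with coordinates in the field of constants `k` -/
def IsConst {W : WeierstrassCurve k} {L : Type*} [Field L] [Algebra k L] (P : (W⁄L).Point) : Prop :=
  P = 0 ∨ ∃ (c d : k) (h : (W⁄L).Nonsingular (algebraMap k L c) (algebraMap k L d)),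
    P = .some _ _ h

/-- the substitution `X ↦ g` on rational functions (junk if `g` is constant) -/
def subst (g : RatFunc k) : RatFunc k →ₐ[k] RatFunc k :=
  open Classical in
  if hg : Transcendental k g then
    RatFunc.liftAlgHom (S := k) (Polynomial.aeval g)
      (nonZeroDivisors_le_comap_nonZeroDivisors_of_injective _
        (transcendental_iff_injective.mp hg))
  else AlgHom.id k _

/-- the `q`-power Frobenius on the points of a curve over a finite field `k` with values in an
extension `K`. -/
def frob [Fintype k] (W : WeierstrassCurve k) (K : Type*) [Field K] [Algebra k K]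
    [DecidableEq K] : (W⁄K).Point →+ (W⁄K).Point :=
  Affine.Point.map (W' := W) (FiniteField.frobeniusAlgHom k K)

/-- Manin's expression: the `x`-coordinate of `frob η - η` for `η = (t, y)`. -/
def Rex [Fintype k] (A B : k) {K : Type*} [Field K] [Algebra k K] (t : K) : K :=
  (t ^ 3 + algebraMap k K A * t + algebraMap k K B) *
      ((t ^ 3 + algebraMap k K A * t + algebraMap k K B) ^ ((Fintype.card k - 1) / 2) + 1) ^ 2 /
      (t ^ Fintype.card k - t) ^ 2
    - t ^ Fintype.card k - t

/-- the order of cancellation at `X - c` in Manin's fraction: `1` if `f(c) = 0`, `0` if `f(c)` is a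
nonzero square, `2` if `f(c)` is not a square.  So `2 - ecan A B c` is the number of points with
`x`-coordinate `c`. -/
def ecan (A B : k) (c : k) : ℕ :=
  open Classical in
  if (fpol A B).eval c = 0 then 1 else if IsSquare ((fpol A B).eval c) then 0 else 2

/-- the quadratic polynomial defining the function field of `y² = x³ + A x + B` -/
def Lpoly (A B : k) : (RatFunc k)[X] := X ^ 2 - C (algebraMap k[X] (RatFunc k) (fpol A B))

end

end Fermat.Agent.Lib.FrobCH
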