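import Mathlib
import Fermat.Agent.Lib.FrobCH.Defs

/-!
# `frob η - η` for a point `η = (t, y)`: Manin's expression for its `x`-coordinate.
-/

namespace Fermat.Agent.Lib.FrobCH

open Polynomial WeierstrassCurve WeierstrassCurve.Affine

noncomputable section

variable {k : Type*} [Field k]

theorem FrobSub.card_eq [Fintype k] (h2 : (2 : k) ≠ 0) :
    Fintype.card k = 2 * ((Fintype.card k - 1) / 2) + 1 := by
  have hchar : ringChar k ≠ 2 := by
    intro h
    apply h2
    have := ringChar.Nat.cast_ringChar (R := k)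
    rw [h] at this
    exact_mod_cast this
  have := FiniteField.odd_card_of_char_ne_two hchar
  omega

theorem FrobSub.exists_some_eq {K : Type*} [Field K] {W : Affine K} {x x' y : K} (hx : x = x')
    (h : W.Nonsingular x y) : ∃ h' : W.Nonsingular x' y, Point.some x y h = Point.some x' y h' := by
  subst hx
  exact ⟨h, rfl⟩

theorem frob_sub_eq [Fintype k] (h2 : (2 : k) ≠ 0) (A B : k) {K : Type*} [Field K] [Algebra k K]
    [DecidableEq K] {t y : K} (h : ((shortW A B)⁄K).Nonsingular t y)
    (ht : t ^ Fintype.card k ≠ t) :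
    ∃ (y' : K) (h' : ((shortW A B)⁄K).Nonsingular (Rex A B t) y'),
      frob (shortW A B) K (.some t y h) - .some t y h = .some _ _ h' := by
  have hq := FrobSub.card_eq h2
  set q := Fintype.card k with hqdef
  set m := (q - 1) / 2 with hm
  have hy : y ^ 2 = t ^ 3 + algebraMap k K A * t + algebraMap k K B := by
    have := h.1
    rw [Affine.equation_iff] at this
    simpa [shortW] using this
  have hns : ((shortW A B)⁄K).Nonsingular (t ^ q) (y ^ q) :=
    (Affine.baseChange_nonsingular (shortW A B)
      (FiniteField.frobeniusAlgHom k K).injective ..).mpr h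
  have hfrob : frob (shortW A B) K (.some t y h) = .some (t ^ q) (y ^ q) hns := rfl
  rw [hfrob, sub_eq_add_neg, Point.neg_some, Point.add_of_X_ne ht]
  have key : ((shortW A B)⁄K).addX (t ^ q) t
      (((shortW A B)⁄K).slope (t ^ q) t (y ^ q) (((shortW A B)⁄K).negY t y)) = Rex A B t := by
    rw [Affine.slope_of_X_ne ht]
    have hne : t ^ q - t ≠ 0 := sub_ne_zero.mpr ht
    have hyq : y ^ q = y * (y ^ 2) ^ m := by
      rw [← pow_mul, ← pow_succ']
      congr 1
    simp only [Affine.addX, Affine.negY, Rex, shortW, ← hqdef, ← hm, ← hy, hyq]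
    simp
    field_simp
  obtain ⟨h', he⟩ := FrobSub.exists_some_eq key (Affine.nonsingular_add hns
    ((Affine.nonsingular_neg ..).mpr h) fun hxy => ht hxy.left)
  exact ⟨_, h', he⟩

theorem map_Rex [Fintype k] (A B : k) {K K' : Type*} [Field K] [Algebra k K] [Field K']
    [Algebra k K'] (f : K →ₐ[k] K') (t : K) : f (Rex A B t) = Rex A B (f t) := by
  simp [Rex, map_div₀]

theorem FrobSub.prod_X_sub_C [Fintype k] :
    ∏ c : k, (X - C c) = (X ^ Fintype.card k - X : k[X]) := by
  have hmonic : (X ^ Fintype.card k - X : k[X]).Monic := by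
    apply Polynomial.monic_X_pow_sub
    rw [degree_X]
    exact_mod_cast Fintype.one_lt_card
  have := Polynomial.prod_multiset_X_sub_C_of_monic_of_roots_card_eq hmonic (by
    rw [FiniteField.roots_X_pow_card_sub_X,
      FiniteField.X_pow_card_sub_X_natDegree_eq k Fintype.one_lt_card]
    simp)
  rw [FiniteField.roots_X_pow_card_sub_X] at this
  exact this

theorem eq_C_of_pow_card_eq [Fintype k] {x : RatFunc k} (hx : x ^ Fintype.card k = x) :
    ∃ c : k, x = RatFunc.C c := by
  have h1 := congrArg (Polynomial.aeval x) (FrobSub.prod_X_sub_C (k := k))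
  rw [map_prod] at h1
  simp only [map_sub, map_pow, aeval_X, aeval_C, hx, sub_self] at h1
  obtain ⟨c, -, hc⟩ := Finset.prod_eq_zero_iff.mp h1
  exact ⟨c, sub_eq_zero.mp hc⟩

end

end Fermat.Agent.Lib.FrobCH
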