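import Fermat.Agent.Lib.FrobCH.Defs

/-!
# The function field of `y² = x³ + A x + B` (node N12 of the Frobenius Cayley-Hamilton library)
-/

namespace Fermat.Agent.Lib.FrobCH

open Polynomial

noncomputable section

variable {k : Type*} [Field k]

theorem GenericField.natDegree_fpol (A B : k) : (fpol A B).natDegree = 3 := by
  unfold fpol
  compute_degree!

theorem GenericField.sq_ne_fpol (A B : k) (b : RatFunc k) :
    b ^ 2 ≠ algebraMap k[X] (RatFunc k) (fpol A B) := by
  intro h
  have hf0 : fpol A B ≠ 0 := by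
    intro h0
    have := GenericField.natDegree_fpol A B
    rw [h0] at this
    simp at this
  have hb : b ≠ 0 := by
    rintro rfl
    rw [zero_pow two_ne_zero] at h
    exact hf0 ((map_eq_zero_iff _ (IsFractionRing.injective k[X] (RatFunc k))).mp h.symm)
  have h1 := congrArg RatFunc.intDegree h
  rw [RatFunc.intDegree_polynomial, GenericField.natDegree_fpol, sq,
    RatFunc.intDegree_mul hb hb] at h1
  omega

theorem irreducible_Lpoly (A B : k) : Irreducible (Lpoly A B) :=
  X_pow_sub_C_irreducible_of_prime Nat.prime_two (GenericField.sq_ne_fpol A B)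

instance GenericField.instFactIrreducibleLpoly (A B : k) : Fact (Irreducible (Lpoly A B)) :=
  ⟨irreducible_Lpoly A B⟩

theorem root_sq (A B : k) :
    (AdjoinRoot.root (Lpoly A B)) ^ 2 = pol (AdjoinRoot (Lpoly A B)) (fpol A B) := by
  have h := AdjoinRoot.eval₂_root (Lpoly A B)
  unfold Lpoly at h ⊢
  rw [eval₂_sub, eval₂_pow, eval₂_X, eval₂_C, sub_eq_zero] at h
  rw [h]
  rfl

theorem exists_hom (A B : k) {Ω : Type*} [Field Ω] [Algebra k Ω] (t y : Ω)
    (ht : Transcendental k t)
    (hy : y ^ 2 = t ^ 3 + algebraMap k Ω A * t + algebraMap k Ω B) :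
    ∃ τ : AdjoinRoot (Lpoly A B) →ₐ[k] Ω,
      τ (algebraMap (RatFunc k) _ RatFunc.X) = t ∧ τ (AdjoinRoot.root _) = y := by
  have hinj : Function.Injective (Polynomial.aeval (R := k) t) :=
    transcendental_iff_injective.mp ht
  let φ : RatFunc k →ₐ[k] Ω := RatFunc.liftAlgHom (S := k) (Polynomial.aeval t)
    (nonZeroDivisors_le_comap_nonZeroDivisors_of_injective _ hinj)
  have hφ : ∀ p : k[X], φ (algebraMap k[X] (RatFunc k) p) = Polynomial.aeval t p := by
    intro p
    have := RatFunc.liftAlgHom_apply_div (S := k) (Polynomial.aeval t)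
      (nonZeroDivisors_le_comap_nonZeroDivisors_of_injective _ hinj) p 1
    simpa using this
  have h0 : (Lpoly A B).eval₂ (φ : RatFunc k →+* Ω) y = 0 := by
    unfold Lpoly
    rw [eval₂_sub, eval₂_pow, eval₂_X, eval₂_C, sub_eq_zero, hy]
    change _ = φ _
    rw [hφ]
    simp [fpol]
  refine ⟨AdjoinRoot.liftAlgHom (Lpoly A B) φ y h0, ?_, ?_⟩
  · rw [AdjoinRoot.algebraMap_eq, AdjoinRoot.liftAlgHom_of, ← RatFunc.algebraMap_X, hφ, aeval_X]
  · rw [AdjoinRoot.liftAlgHom_root]

end

end Fermat.Agent.Lib.FrobCH
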