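import Mathlib

/-!
# FrobCH node N7: the parallelogram law gives a quadratic form (abstract)

`h : G → ℤ` with `h (x + y) + h (x - y) = 2 * h x + 2 * h y`.  The polar pairing
`B x y = h (x + y) - h x - h y` is symmetric and biadditive, `B x x = 2 * h x`.
Final statement: `quad_zero`.
-/

namespace Fermat.Agent.Lib.FrobCH

namespace Quad

variable {G : Type*} [AddCommGroup G] {h : G → ℤ}

/-- The polar pairing of `h`. -/
def polar (h : G → ℤ) (x y : G) : ℤ := h (x + y) - h x - h y

theorem map_zero (par : ∀ x y, h (x + y) + h (x - y) = 2 * h x + 2 * h y) : h 0 = 0 := by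
  have := par 0 0
  simp only [add_zero, sub_zero] at this
  omega

theorem map_neg (par : ∀ x y, h (x + y) + h (x - y) = 2 * h x + 2 * h y) (x : G) :
    h (-x) = h x := by
  have h1 := par 0 x
  have h0 := map_zero par
  simp only [zero_add, zero_sub] at h1
  omega

theorem cube (par : ∀ x y, h (x + y) + h (x - y) = 2 * h x + 2 * h y) (x y z : G) :
    h (x + y + z) = h (x + y) + h (x + z) + h (y + z) - h x - h y - h z := by
  have e1 := par (x + z) y
  have e2 := par x (z - y)
  have e3 := par (x + y) z
  have e4 := par z y
  have a1 : x + z + y = x + y + z := by abel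
  have a2 : x + (z - y) = x + z - y := by abel
  have a3 : x - (z - y) = x + y - z := by abel
  have a4 : z + y = y + z := by abel
  rw [a1] at e1
  rw [a2, a3] at e2
  rw [a4] at e4
  omega

theorem polar_comm (h : G → ℤ) (x y : G) : polar h x y = polar h y x := by
  unfold polar
  rw [add_comm x y]
  ring

theorem polar_add_left (par : ∀ x y, h (x + y) + h (x - y) = 2 * h x + 2 * h y) (x y z : G) :
    polar h (x + y) z = polar h x z + polar h y z := by
  unfold polar
  rw [cube par x y z]
  ring

theorem polar_add_right (par : ∀ x y, h (x + y) + h (x - y) = 2 * h x + 2 * h y) (x y z : G) :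
    polar h x (y + z) = polar h x y + polar h x z := by
  rw [polar_comm, polar_add_left par, polar_comm h y, polar_comm h z]

theorem polar_self (par : ∀ x y, h (x + y) + h (x - y) = 2 * h x + 2 * h y) (x : G) :
    polar h x x = 2 * h x := by
  have := par x x
  have h0 := map_zero par
  unfold polar
  rw [sub_self] at this
  omega

/-- The pairing as a biadditive map. -/
def polarHom (par : ∀ x y, h (x + y) + h (x - y) = 2 * h x + 2 * h y) : G →+ G →+ ℤ :=
  AddMonoidHom.mk' (fun x => AddMonoidHom.mk' (fun y => polar h x y) (polar_add_right par x))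
    (fun x y => by
      ext z
      exact polar_add_left par x y z)

theorem polarHom_apply (par : ∀ x y, h (x + y) + h (x - y) = 2 * h x + 2 * h y) (x y : G) :
    polarHom par x y = polar h x y := rfl

theorem polar_zsmul_left (par : ∀ x y, h (x + y) + h (x - y) = 2 * h x + 2 * h y)
    (n : ℤ) (x y : G) : polar h (n • x) y = n * polar h x y := by
  have h1 : polarHom par (n • x) y = n • polarHom par x y := by
    rw [_root_.map_zsmul, AddMonoidHom.zsmul_apply]
  rw [polarHom_apply, polarHom_apply, smul_eq_mul] at h1
  exact h1

theorem polar_zsmul_right (par : ∀ x y, h (x + y) + h (x - y) = 2 * h x + 2 * h y)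
    (n : ℤ) (x y : G) : polar h x (n • y) = n * polar h x y := by
  rw [polar_comm, polar_zsmul_left par, polar_comm]

theorem polar_neg_right (par : ∀ x y, h (x + y) + h (x - y) = 2 * h x + 2 * h y)
    (x y : G) : polar h x (-y) = - polar h x y := by
  have := polar_zsmul_right par (-1) x y
  simpa using this

theorem map_add (h : G → ℤ) (x y : G) : h (x + y) = h x + h y + polar h x y := by
  unfold polar
  ring

theorem map_sub (par : ∀ x y, h (x + y) + h (x - y) = 2 * h x + 2 * h y) (x y : G) :
    h (x - y) = h x + h y - polar h x y := by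
  rw [sub_eq_add_neg, map_add h, map_neg par, polar_neg_right par]
  ring

theorem map_zsmul (par : ∀ x y, h (x + y) + h (x - y) = 2 * h x + 2 * h y) (n : ℤ) (x : G) :
    h (n • x) = n ^ 2 * h x := by
  have h1 := polar_self par (n • x)
  rw [polar_zsmul_left par, polar_zsmul_right par, polar_self par] at h1
  have : 2 * h (n • x) = 2 * (n ^ 2 * h x) := by rw [← h1]; ring
  omega

end Quad

open Quad in
theorem quad_zero {G : Type*} [AddCommGroup G] (h : G → ℤ)
    (par : ∀ x y, h (x + y) + h (x - y) = 2 * h x + 2 * h y)
    (x y z : G) (q a : ℤ) (hx : h x = 1) (hy : h y = q) (hz : h z = q ^ 2)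
    (hyx : h (y - x) = q + 1 - a) (hzy : h (z - y) = q * (q + 1 - a))
    (hzx : h (z - x) = (q + 1 - a) * (q + 1 + a)) :
    h (z - a • y + q • x) = 0 := by
  have b1 : polar h y x = a := by
    have := map_sub par y x
    rw [hyx, hy, hx] at this
    linarith
  have b2 : polar h z y = q * a := by
    have := map_sub par z y
    rw [hzy, hz, hy] at this
    linarith
  have b3 : polar h z x = a ^ 2 - 2 * q := by
    have := map_sub par z x
    rw [hzx, hz, hx] at this
    linarith
  rw [map_add h, map_sub par, map_zsmul par, map_zsmul par, polar_zsmul_right par,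
    polar_zsmul_right par, sub_eq_add_neg z, polar_add_left par, polar_comm h (-(a • y)),
    polar_neg_right par, polar_zsmul_right par, polar_comm h x y, b1, b2, b3, hx, hy, hz]
  ring

end Fermat.Agent.Lib.FrobCH
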