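import Fermat.Agent.Lib.FrobCH.Defs

/-!
# FrobCH, node N2: substitution in rational functions, degree of a composition
Proofs: helper171.
-/

namespace Fermat.Agent.Lib.FrobCH

open Polynomial IntermediateField

noncomputable section

variable {k : Type*} [Field k]

theorem subst_X {g : RatFunc k} (hg : ¬ ∃ c : k, g = RatFunc.C c) : subst g RatFunc.X = g := by
  have htr : Transcendental k g := RatFunc.transcendental_of_ne_C g hg
  unfold subst
  rw [dif_pos htr, RatFunc.liftAlgHom_apply, RatFunc.num_X, RatFunc.denom_X, aeval_X, map_one,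
    div_one]

theorem Subst_hdeg_eq_finrank (x : RatFunc k) : hdeg x = Module.finrank k⟮x⟯ (RatFunc k) :=
  (RatFunc.finrank_eq_max_natDegree x).symm

theorem hdeg_subst {g : RatFunc k} (hg : ¬ ∃ c : k, g = RatFunc.C c) (x : RatFunc k) :
    hdeg (subst g x) = hdeg x * hdeg g := by
  have h1 : k⟮subst g x⟯ = (k⟮x⟯).map (subst g) := by
    rw [IntermediateField.adjoin_map, Set.image_singleton]
  have h2 : k⟮g⟯ = (⊤ : IntermediateField k (RatFunc k)).map (subst g) := by
    rw [← RatFunc.adjoin_X, IntermediateField.adjoin_map, Set.image_singleton, subst_X hg]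
  have hle : k⟮subst g x⟯ ≤ k⟮g⟯ := by
    rw [h1, h2]
    exact IntermediateField.map_mono _ le_top
  have h3 := IntermediateField.relfinrank_mul_finrank_top hle
  rw [← Subst_hdeg_eq_finrank, ← Subst_hdeg_eq_finrank, h1, h2,
    IntermediateField.relfinrank_map_map, IntermediateField.relfinrank_top_right,
    ← Subst_hdeg_eq_finrank] at h3
  exact h3.symm

end

end Fermat.Agent.Lib.FrobCH
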