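import Fermat.Agent.Lib.FrobCH.Hgt
import Fermat.Agent.Lib.FrobCH.Subst
import Fermat.Agent.Lib.FrobCH.Quad
import Fermat.Agent.Lib.FrobCH.FrobSub
import Fermat.Agent.Lib.FrobCH.CountCard
import Fermat.Agent.Lib.FrobCH.CountDeg
import Fermat.Agent.Lib.FrobCH.Const
import Fermat.Agent.Lib.FrobCH.GenericField

/-!
# The Cayley-Hamilton relation at a generic point, up to a constant point
-/

namespace Fermat.Agent.Lib.FrobCH

open Polynomial WeierstrassCurve WeierstrassCurve.Affine

variable {k : Type*} [Field k]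

theorem hdeg_Rex_X [Fintype k] (h2 : (2 : k) ≠ 0) (A B : k) (hΔ : (shortW A B).Δ ≠ 0) :
    hdeg (Rex A B (RatFunc.X : RatFunc k)) = Nat.card (shortW A B).toAffine.Point := by
  have h₁ := card_add_sum_ecan h2 A B hΔ
  have h₂ := hdeg_Rex_X_add_sum_ecan h2 A B hΔ
  omega

theorem card_le [Fintype k] (h2 : (2 : k) ≠ 0) (A B : k) (hΔ : (shortW A B).Δ ≠ 0) :
    Nat.card (shortW A B).toAffine.Point ≤ 2 * Fintype.card k + 1 := by
  have h₁ := card_add_sum_ecan h2 A B hΔ
  omega

theorem hdeg_X : hdeg (RatFunc.X : RatFunc k) = 1 := by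
  simp [hdeg]

theorem X_ne_C : ¬ ∃ c : k, (RatFunc.X : RatFunc k) = RatFunc.C c := by
  intro h
  have := (hdeg_eq_zero_iff (RatFunc.X : RatFunc k)).mpr h
  rw [hdeg_X] at this
  exact one_ne_zero this

section

variable (A B : k) {L : Type*} [Field L] [DecidableEq L] [Algebra k L] [Algebra (RatFunc k) L]
  [IsScalarTower k (RatFunc k) L] {y : L}

/-- the subgroup of odd points -/
def oddSubgroup (hy : y ^ 2 = pol L (fpol A B)) : AddSubgroup ((shortW A B)⁄L).Point where
  carrier := {P | InG A B y P}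
  zero_mem' := InG.zero A B
  add_mem' := fun hP hQ => InG.add A B hy hP hQ
  neg_mem' := fun hP => InG.neg A B hy hP

theorem InG.sub (hy : y ^ 2 = pol L (fpol A B)) {P Q : ((shortW A B)⁄L).Point}
    (hP : InG A B y P) (hQ : InG A B y Q) : InG A B y (P - Q) :=
  (oddSubgroup A B hy).sub_mem hP hQ

omit [DecidableEq L] in
theorem algebraMap_Rex [Fintype k] (g : RatFunc k) :
    algebraMap (RatFunc k) L (Rex A B g) = Rex A B (algebraMap (RatFunc k) L g) :=
  map_Rex A B (IsScalarTower.toAlgHom k (RatFunc k) L) g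

/-- the height of `frob P - P` for an odd point `P` with non-constant `x`-coordinate. -/
theorem hgt_frob_sub [Fintype k] (h2 : (2 : k) ≠ 0) (hΔ : (shortW A B).Δ ≠ 0)
    {g : RatFunc k} (hg : ¬ ∃ c : k, g = RatFunc.C c) {y' : L}
    (h : ((shortW A B)⁄L).Nonsingular (algebraMap (RatFunc k) L g) y') :
    hgt k (frob (shortW A B) L (.some _ _ h) - .some _ _ h) =
      Nat.card (shortW A B).toAffine.Point * hdeg g := by
  have ht : (algebraMap (RatFunc k) L g) ^ Fintype.card k ≠ algebraMap (RatFunc k) L g := by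
    intro e
    apply hg
    apply eq_C_of_pow_card_eq
    apply (algebraMap (RatFunc k) L).injective
    rw [map_pow, e]
  obtain ⟨y'', h'', e⟩ := frob_sub_eq h2 A B h ht
  rw [e]
  have e2 : Rex A B (algebraMap (RatFunc k) L g) =
      algebraMap (RatFunc k) L (subst g (Rex A B RatFunc.X)) := by
    rw [map_Rex, subst_X hg, algebraMap_Rex]
  have h3 : ((shortW A B)⁄L).Nonsingular
      (algebraMap (RatFunc k) L (subst g (Rex A B RatFunc.X))) y'' := e2 ▸ h''
  have e3 : (Point.some _ _ h'' : ((shortW A B)⁄L).Point) = Point.some _ _ h3 := by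
    simp only [Point.some.injEq, and_true]
    exact e2
  rw [e3, hgt_some, hdeg_subst hg, hdeg_Rex_X h2 A B hΔ]

end

theorem generic_CH' [Fintype k] (h2 : (2 : k) ≠ 0) (A B : k) (hΔ : (shortW A B).Δ ≠ 0)
    {L : Type*} [Field L] [DecidableEq L] [Algebra k L] [Algebra (RatFunc k) L]
    [IsScalarTower k (RatFunc k) L] {y : L} (hy : y ^ 2 = pol L (fpol A B))
    (h : ((shortW A B)⁄L).Nonsingular (algebraMap (RatFunc k) L RatFunc.X) y) :
    IsConst
      (frob (shortW A B) L (frob (shortW A B) L (.some _ _ h))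
        - ((Fintype.card k : ℤ) + 1 - (Nat.card (shortW A B).toAffine.Point : ℤ)) •
            frob (shortW A B) L (.some _ _ h)
        + (Fintype.card k : ℤ) • (.some _ _ h)) := by
  set η : ((shortW A B)⁄L).Point := .some _ _ h with hη
  set φ := frob (shortW A B) L with hφ
  set q := Fintype.card k with hq
  set N := Nat.card (shortW A B).toAffine.Point with hN
  have hηG : InG A B y η := Or.inr ⟨RatFunc.X, 1, by simpa using h, by simp [hη]⟩
  have hφηG : InG A B y (φ η) := InG.frob A B hy h2 hηG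
  have hφφηG : InG A B y (φ (φ η)) := InG.frob A B hy h2 hφηG
  have hh1 : hgt k η = 1 := by rw [hη, hgt_some, hdeg_X]
  have hh2 : hgt k (φ η) = q := by rw [hφ, hgt_frob A B hηG, hh1, mul_one]
  have hh3 : hgt k (φ (φ η)) = q * q := by rw [hφ, hgt_frob A B hφηG, hh2]
  have hh4 : hgt k (φ η - η) = N := by
    rw [hη, hφ, hgt_frob_sub A B h2 hΔ X_ne_C h, hdeg_X, mul_one]
  have hh5 : hgt k (φ (φ η) - φ η) = q * N := by
    rw [← map_sub, hφ, hgt_frob A B (InG.sub A B hy hφηG hηG), hh4]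
  have hNle : N ≤ 2 * q + 1 := card_le h2 A B hΔ
  have hpar := hgt_parallelogram A B hy hΔ hφηG hηG
  rw [hh4, hh2, hh1] at hpar
  have hγG : InG A B y (φ η + η) := InG.add A B hy hφηG hηG
  have hh6 : hgt k (φ (φ η) - η) = N * hgt k (φ η + η) := by
    rcases hγG with h0 | ⟨g, Y, hgY, e⟩
    · exfalso
      rw [h0] at hpar
      have : hgt k (0 : ((shortW A B)⁄L).Point) = 0 := rfl
      omega
    · have hgd : hgt k (φ η + η) = hdeg g := by rw [e, hgt_some]
      have hg : ¬ ∃ c : k, g = RatFunc.C c := by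
        intro hc
        have := (hdeg_eq_zero_iff g).mpr hc
        omega
      have e' : φ (φ η) - η = φ (φ η + η) - (φ η + η) := by
        rw [map_add]; abel
      rw [e', e, hφ, hgt_frob_sub A B h2 hΔ hg hgY, hgt_some]
  -- the quadratic form on the subgroup of odd points
  let G := oddSubgroup A B hy
  let hh : G → ℤ := fun P => (hgt k P.1 : ℤ)
  have par : ∀ x y : G, hh (x + y) + hh (x - y) = 2 * hh x + 2 * hh y := by
    intro x y
    have := hgt_parallelogram A B hy hΔ x.2 y.2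
    simp only [hh, AddSubgroup.coe_add, AddSubgroup.coe_sub]
    exact_mod_cast this
  have key := quad_zero hh par ⟨η, hηG⟩ ⟨φ η, hφηG⟩ ⟨φ (φ η), hφφηG⟩ (q : ℤ)
    ((q : ℤ) + 1 - (N : ℤ)) (by simp [hh, hh1]) (by simp [hh, hh2])
    (by simp [hh, hh3]; ring)
    (by simp [hh, hh4])
    (by simp [hh, hh5])
    (by
      simp only [hh, AddSubgroup.coe_sub, hh6]
      have : (hgt k (φ η + η) : ℤ) = 2 * q + 2 - N := by
        have : (hgt k (φ η + η) : ℤ) + N = 2 * q + 2 * 1 := by exact_mod_cast hpar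
        linarith
      push_cast
      rw [this]; ring)
  have key' : hgt k (φ (φ η) - ((q : ℤ) + 1 - (N : ℤ)) • φ η + (q : ℤ) • η) = 0 := by
    have : hh (⟨φ (φ η), hφφηG⟩ - ((q : ℤ) + 1 - (N : ℤ)) • ⟨φ η, hφηG⟩ + (q : ℤ) • ⟨η, hηG⟩) =
        (hgt k (φ (φ η) - ((q : ℤ) + 1 - (N : ℤ)) • φ η + (q : ℤ) • η) : ℤ) := by
      simp [hh]
    rw [this] at key
    exact_mod_cast key
  refine const_of_hgt_eq_zero A B hy ?_ key'
  exact (G.add_mem (G.sub_mem hφφηG (G.zsmul_mem hφηG _)) (G.zsmul_mem hηG _))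

theorem generic_CH [Fintype k] (h2 : (2 : k) ≠ 0) (A B : k) (hΔ : (shortW A B).Δ ≠ 0)
    [DecidableEq (AdjoinRoot (Lpoly A B))]
    (h : ((shortW A B)⁄(AdjoinRoot (Lpoly A B))).Nonsingular
      (algebraMap (RatFunc k) _ RatFunc.X) (AdjoinRoot.root (Lpoly A B))) :
    IsConst
      (frob (shortW A B) _ (frob (shortW A B) _ (.some _ _ h))
        - ((Fintype.card k : ℤ) + 1 - (Nat.card (shortW A B).toAffine.Point : ℤ)) •
            frob (shortW A B) _ (.some _ _ h)
        + (Fintype.card k : ℤ) • (.some _ _ h)) :=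
  generic_CH' h2 A B hΔ (root_sq A B) h

end Fermat.Agent.Lib.FrobCH
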