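import Fermat.Agent.Lib.FrobCH.Defs

/-!
# The "odd" points `(x, Y * y)` form a Frobenius-stable subgroup
-/

namespace Fermat.Agent.Lib.FrobCH

open Polynomial WeierstrassCurve WeierstrassCurve.Affine

noncomputable section

variable {k : Type*} [Field k]

section Group

variable (A B : k) {L : Type*} [Field L] [DecidableEq L] [Algebra k L] [Algebra (RatFunc k) L]
  [IsScalarTower k (RatFunc k) L] {y : L} (hy : y ^ 2 = pol L (fpol A B))

omit [DecidableEq L] [IsScalarTower k (RatFunc k) L] in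
theorem InG.zero : InG A B y 0 := Or.inl rfl

omit [DecidableEq L] [IsScalarTower k (RatFunc k) L] in
variable {A B} in
/-- a point whose coordinates have the right shape is odd -/
theorem InG.of_coords {X' Y' : L} (h : ((shortW A B)⁄L).Nonsingular X' Y') (x Y : RatFunc k)
    (hx : X' = algebraMap (RatFunc k) L x) (hY : Y' = algebraMap (RatFunc k) L Y * y) :
    InG A B y (.some _ _ h) := by
  subst hx hY
  exact Or.inr ⟨x, Y, h, rfl⟩

omit [DecidableEq L] [Algebra (RatFunc k) L] [IsScalarTower k (RatFunc k) L] in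
theorem Group.a₁_eq : ((shortW A B)⁄L).a₁ = 0 := by simp [shortW]

omit [DecidableEq L] [Algebra (RatFunc k) L] [IsScalarTower k (RatFunc k) L] in
theorem Group.a₂_eq : ((shortW A B)⁄L).a₂ = 0 := by simp [shortW]

omit [DecidableEq L] [Algebra (RatFunc k) L] [IsScalarTower k (RatFunc k) L] in
theorem Group.a₃_eq : ((shortW A B)⁄L).a₃ = 0 := by simp [shortW]

omit [DecidableEq L] [Algebra (RatFunc k) L] [IsScalarTower k (RatFunc k) L] in
theorem Group.a₄_eq : ((shortW A B)⁄L).a₄ = algebraMap k L A := by simp [shortW]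

omit [DecidableEq L] [Algebra (RatFunc k) L] [IsScalarTower k (RatFunc k) L] in
theorem Group.negY_eq (x' y' : L) : ((shortW A B)⁄L).toAffine.negY x' y' = -y' := by
  rw [negY, Group.a₁_eq, Group.a₃_eq]
  ring

omit [DecidableEq L] [Algebra (RatFunc k) L] [IsScalarTower k (RatFunc k) L] in
theorem Group.addX_eq (x₁ x₂ l : L) :
    ((shortW A B)⁄L).toAffine.addX x₁ x₂ l = l ^ 2 - x₁ - x₂ := by
  rw [addX, Group.a₁_eq, Group.a₂_eq]
  ring

omit [DecidableEq L] [Algebra (RatFunc k) L] [IsScalarTower k (RatFunc k) L] in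
theorem Group.addY_eq (x₁ x₂ y₁ l : L) :
    ((shortW A B)⁄L).toAffine.addY x₁ x₂ y₁ l = -(l * (l ^ 2 - x₁ - x₂ - x₁) + y₁) := by
  rw [addY, negAddY, Group.negY_eq, Group.addX_eq]

set_option linter.unusedSectionVars false in
include hy in
theorem InG.neg {P : ((shortW A B)⁄L).Point} (hP : InG A B y P) : InG A B y (-P) := by
  rcases hP with rfl | ⟨x, Y, h, rfl⟩
  · exact Or.inl rfl
  · rw [Point.neg_some]
    refine InG.of_coords _ x (-Y) rfl ?_
    rw [Group.negY_eq, map_neg, neg_mul]

include hy in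
/-- the slope of the line through two odd points is an odd element -/
theorem Group.exists_slope (x₁ x₂ Y₁ Y₂ : RatFunc k)
    (hxy : ¬(algebraMap (RatFunc k) L x₁ = algebraMap (RatFunc k) L x₂ ∧
      algebraMap (RatFunc k) L Y₁ * y =
        ((shortW A B)⁄L).toAffine.negY (algebraMap (RatFunc k) L x₂)
          (algebraMap (RatFunc k) L Y₂ * y))) :
    ∃ l : RatFunc k, ((shortW A B)⁄L).toAffine.slope (algebraMap (RatFunc k) L x₁)
      (algebraMap (RatFunc k) L x₂) (algebraMap (RatFunc k) L Y₁ * y)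
      (algebraMap (RatFunc k) L Y₂ * y) = algebraMap (RatFunc k) L l * y := by
  by_cases hx : algebraMap (RatFunc k) L x₁ = algebraMap (RatFunc k) L x₂
  · have hne : algebraMap (RatFunc k) L Y₁ * y ≠
        ((shortW A B)⁄L).toAffine.negY (algebraMap (RatFunc k) L x₂)
          (algebraMap (RatFunc k) L Y₂ * y) := fun h => hxy ⟨hx, h⟩
    have hy0 : y ≠ 0 := by
      rintro rfl
      apply hne
      rw [Group.negY_eq]
      simp
    refine ⟨(3 * x₁ ^ 2 + algebraMap k (RatFunc k) A) /
      (2 * Y₁ * algebraMap k[X] (RatFunc k) (fpol A B)), ?_⟩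
    rw [slope_of_Y_ne hx hne, Group.negY_eq, Group.a₁_eq, Group.a₂_eq, Group.a₄_eq]
    have hy' : algebraMap (RatFunc k) L (algebraMap k[X] (RatFunc k) (fpol A B)) = y ^ 2 :=
      hy.symm
    rw [map_div₀, map_mul, map_mul, hy', map_add, map_mul, map_pow,
      ← IsScalarTower.algebraMap_apply k (RatFunc k) L, map_ofNat, map_ofNat]
    have h2y : algebraMap (RatFunc k) L Y₁ * y - -(algebraMap (RatFunc k) L Y₁ * y) =
        (2 * algebraMap (RatFunc k) L Y₁) * y := by ring
    rw [h2y]
    generalize 2 * algebraMap (RatFunc k) L Y₁ = c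
    by_cases hc : c = 0
    · simp [hc]
    · field_simp
      ring
  · refine ⟨(Y₁ - Y₂) / (x₁ - x₂), ?_⟩
    rw [slope_of_X_ne hx, map_div₀, map_sub, map_sub]
    ring

include hy in
theorem InG.add {P Q : ((shortW A B)⁄L).Point} (hP : InG A B y P) (hQ : InG A B y Q) :
    InG A B y (P + Q) := by
  rcases hP with rfl | ⟨x₁, Y₁, h₁, rfl⟩
  · rwa [zero_add]
  rcases hQ with rfl | ⟨x₂, Y₂, h₂, rfl⟩
  · rw [add_zero]
    exact Or.inr ⟨x₁, Y₁, h₁, rfl⟩
  by_cases hxy : algebraMap (RatFunc k) L x₁ = algebraMap (RatFunc k) L x₂ ∧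
      algebraMap (RatFunc k) L Y₁ * y =
        ((shortW A B)⁄L).toAffine.negY (algebraMap (RatFunc k) L x₂)
          (algebraMap (RatFunc k) L Y₂ * y)
  · rw [Point.add_of_Y_eq hxy.1 hxy.2]
    exact Or.inl rfl
  · obtain ⟨l, hl⟩ := Group.exists_slope A B hy x₁ x₂ Y₁ Y₂ hxy
    rw [Point.add_some hxy]
    have hy' : algebraMap (RatFunc k) L (algebraMap k[X] (RatFunc k) (fpol A B)) = y ^ 2 :=
      hy.symm
    refine InG.of_coords _
      (l ^ 2 * algebraMap k[X] (RatFunc k) (fpol A B) - x₁ - x₂)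
      (-(l * (l ^ 2 * algebraMap k[X] (RatFunc k) (fpol A B) - x₁ - x₂ - x₁) + Y₁)) ?_ ?_
    · rw [hl, Group.addX_eq]
      simp only [map_sub, map_mul, map_pow, hy']
      ring
    · rw [hl, Group.addY_eq]
      simp only [map_sub, map_mul, map_pow, map_neg, map_add, hy']
      ring

set_option linter.unusedSectionVars false in
include hy in
theorem InG.frob [Fintype k] (h2 : (2 : k) ≠ 0) {P : ((shortW A B)⁄L).Point}
    (hP : InG A B y P) : InG A B y (frob (shortW A B) L P) := by
  rcases hP with rfl | ⟨x, Y, h, rfl⟩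
  · rw [map_zero]
    exact Or.inl rfl
  · have hodd : Fintype.card k % 2 = 1 := by
      apply FiniteField.odd_card_of_char_ne_two
      intro hc
      apply h2
      have := CharP.cast_eq_zero k (ringChar k)
      rw [hc] at this
      exact_mod_cast this
    have hq : Fintype.card k = 2 * ((Fintype.card k - 1) / 2) + 1 := by omega
    have hy' : algebraMap (RatFunc k) L (algebraMap k[X] (RatFunc k) (fpol A B)) = y ^ 2 :=
      hy.symm
    unfold Fermat.Agent.Lib.FrobCH.frob
    rw [Point.map_some]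
    refine InG.of_coords _ (x ^ Fintype.card k)
      (Y ^ Fintype.card k *
        algebraMap k[X] (RatFunc k) (fpol A B) ^ ((Fintype.card k - 1) / 2)) ?_ ?_
    · rw [FiniteField.coe_frobeniusAlgHom, map_pow]
    · rw [FiniteField.coe_frobeniusAlgHom, map_mul, map_pow, map_pow, hy', ← pow_mul]
      simp only
      rw [mul_pow, mul_assoc, ← pow_succ, ← hq]

end Group

end

end Fermat.Agent.Lib.FrobCH
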