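import Fermat.Agent.Lib.FrobCH.Defs

/-!
# FrobCH, N1: basic properties of the height `hdeg` of a rational function
(helper288)
-/

namespace Fermat.Agent.Lib.FrobCH

open Polynomial

noncomputable section

variable {k : Type*} [Field k]

theorem Height.natDegree_eq_of_dvd_dvd {a b : k[X]} (h₁ : a ∣ b) (h₂ : b ∣ a) :
    a.natDegree = b.natDegree :=
  natDegree_eq_of_degree_eq (degree_eq_degree_of_associated (associated_of_dvd_dvd h₁ h₂))

theorem hdeg_div_of_isCoprime {a b : k[X]} (hb : b ≠ 0) (hab : IsCoprime a b) :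
    hdeg (algebraMap k[X] (RatFunc k) a / algebraMap k[X] (RatFunc k) b) = dmax a b := by
  set x := algebraMap k[X] (RatFunc k) a / algebraMap k[X] (RatFunc k) b with hx
  have h : x.num * b = a * x.denom := (RatFunc.num_mul_eq_mul_denom_iff hb).2 hx
  have hc := RatFunc.isCoprime_num_denom x
  have h1 : x.num ∣ a := hc.dvd_of_dvd_mul_right (h ▸ Dvd.intro _ rfl)
  have h2 : a ∣ x.num := hab.dvd_of_dvd_mul_right (h.symm ▸ Dvd.intro _ rfl)
  have h3 : x.denom ∣ b := hc.symm.dvd_of_dvd_mul_left (h.symm ▸ Dvd.intro_left _ rfl)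
  have h4 : b ∣ x.denom := hab.symm.dvd_of_dvd_mul_left (h ▸ Dvd.intro_left _ rfl)
  rw [hdeg, dmax, Height.natDegree_eq_of_dvd_dvd h1 h2, Height.natDegree_eq_of_dvd_dvd h3 h4]

theorem hdeg_pow (x : RatFunc k) (n : ℕ) : hdeg (x ^ n) = n * hdeg x := by
  have h : x ^ n = algebraMap k[X] (RatFunc k) (x.num ^ n) /
      algebraMap k[X] (RatFunc k) (x.denom ^ n) := by
    rw [map_pow, map_pow, ← div_pow, RatFunc.num_div_denom]
  rw [h, hdeg_div_of_isCoprime (pow_ne_zero n x.denom_ne_zero)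
    ((RatFunc.isCoprime_num_denom x).pow), dmax, natDegree_pow, natDegree_pow, hdeg,
    Nat.mul_max_mul_left]

theorem hdeg_eq_zero_iff (x : RatFunc k) : hdeg x = 0 ↔ ∃ c : k, x = RatFunc.C c := by
  constructor
  · intro h
    rw [hdeg, Nat.max_eq_zero_iff] at h
    obtain ⟨h1, h2⟩ := h
    have h3 : x.denom = 1 := eq_one_of_monic_natDegree_zero x.monic_denom h2
    refine ⟨x.num.coeff 0, ?_⟩
    conv_lhs => rw [← RatFunc.num_div_denom x, h3, map_one, div_one, eq_C_of_natDegree_eq_zero h1]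
    rw [RatFunc.algebraMap_C]
  · rintro ⟨c, rfl⟩
    simp [hdeg]

end

end Fermat.Agent.Lib.FrobCH
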