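import Fermat.Agent.Lib.FrobCH.Triple
import Fermat.Agent.Lib.FrobCH.AddSub
import Fermat.Agent.Lib.FrobCH.AddSubGeom

/-!
# The exact parallelogram law for degrees of `x`-coordinates (function field case)
-/

namespace Fermat.Agent.Lib.FrobCH

open Polynomial WeierstrassCurve WeierstrassCurve.Affine

variable {k : Type*} [Field k]

theorem pol_injective (L : Type*) [Field L] [Algebra (RatFunc k) L] :
    Function.Injective (pol (k := k) L) :=
  (algebraMap (RatFunc k) L).injective.comp (IsFractionRing.injective k[X] (RatFunc k))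

theorem pol_C (L : Type*) [Field L] [Algebra k L] [Algebra (RatFunc k) L]
    [IsScalarTower k (RatFunc k) L] (c : k) : pol L (C c) = algebraMap k L c := by
  simp only [pol, RingHom.comp_apply]
  rw [← Polynomial.algebraMap_eq, ← IsScalarTower.algebraMap_apply k k[X] (RatFunc k),
    ← IsScalarTower.algebraMap_apply k (RatFunc k) L]

/-- a scalar relating a coprime representative to `xRep`. -/
theorem IsX.exists_scalar {L : Type*} [Field L] [Algebra (RatFunc k) L] {W : Affine L}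
    {P : W.Point} {a b : k[X]} (h : IsX P a b) :
    ∃ l : L, l ≠ 0 ∧ pol L a = l * P.xRep 0 ∧ pol L b = l * P.xRep 1 := by
  obtain ⟨hc, hr⟩ := h
  have hinj := pol_injective (k := k) L
  cases P with
  | zero =>
    have hr' : pol L b = 0 := by simpa [← Point.zero_def] using hr
    have hb : b = 0 := by
      apply hinj; rw [hr', map_zero]
    subst hb
    have ha : IsUnit a := isCoprime_zero_right.mp hc
    refine ⟨pol L a, (ha.map (pol L)).ne_zero, ?_, ?_⟩
    · simp [← Point.zero_def]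
    · simp [← Point.zero_def]
  | some x y hxy =>
    have hr' : x * pol L b = pol L a := by simpa using hr
    refine ⟨pol L b, ?_, ?_, ?_⟩
    · intro hb0
      have hb : b = 0 := by apply hinj; rw [hb0, map_zero]
      have ha : a = 0 := by
        apply hinj; rw [← hr', hb0, mul_zero, map_zero]
      subst ha hb
      exact not_isCoprime_zero_zero hc
    · simp [← hr', mul_comm]
    · simp

theorem asF_smul {R : Type*} [CommRing R] (W : WeierstrassCurve R) (m : R) (v : Fin 3 → R)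
    (i : Fin 3) : asF W (fun j => m * v j) i = m ^ 2 * asF W v i := by
  fin_cases i <;> simp [asF] <;> ring

theorem map_asF {R S : Type*} [CommRing R] [CommRing S] (f : R →+* S) (W : WeierstrassCurve R)
    (v : Fin 3 → R) (i : Fin 3) : f (asF W v i) = asF (W.map f) (fun j => f (v j)) i := by
  fin_cases i <;> simp [asF, map_ofNat]

theorem parallelogram (W : WeierstrassCurve k) (hΔ : W.Δ ≠ 0) {L : Type*} [Field L]
    [DecidableEq L] [Algebra k L] [Algebra (RatFunc k) L] [IsScalarTower k (RatFunc k) L]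
    {P Q : (W⁄L).Point} {a₁ b₁ a₂ b₂ a₃ b₃ a₄ b₄ : k[X]}
    (h₁ : IsX P a₁ b₁) (h₂ : IsX Q a₂ b₂) (h₃ : IsX (P + Q) a₃ b₃) (h₄ : IsX (P - Q) a₄ b₄) :
    dmax a₃ b₃ + dmax a₄ b₄ = 2 * dmax a₁ b₁ + 2 * dmax a₂ b₂ := by
  obtain ⟨l₁, -, ha₁, hb₁⟩ := h₁.exists_scalar
  obtain ⟨l₂, -, ha₂, hb₂⟩ := h₂.exists_scalar
  obtain ⟨l₃, -, ha₃, hb₃⟩ := h₃.exists_scalar
  obtain ⟨l₄, -, ha₄, hb₄⟩ := h₄.exists_scalar
  have hinj := pol_injective (k := k) L
  have hW : (W.map C).map (pol L) = (W⁄L) := by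
    rw [WeierstrassCurve.map_map]
    congr 1
    ext c
    simp [pol_C]
  have hv : ∀ j, pol L (sym a₁ b₁ a₂ b₂ j) = (l₁ * l₂) * P.sym2x Q j := by
    intro j
    fin_cases j <;> simp [sym, Point.sym2x, ha₁, hb₁, ha₂, hb₂] <;> ring
  have hv' : ∀ j, pol L (sym a₃ b₃ a₄ b₄ j) = (l₃ * l₄) * (P + Q).sym2x (P - Q) j := by
    intro j
    fin_cases j <;> simp [sym, Point.sym2x, ha₃, hb₃, ha₄, hb₄] <;> ring
  have hF : ∀ i, pol L (asF (W.map C) (sym a₁ b₁ a₂ b₂) i) =
      (l₁ * l₂) ^ 2 * asF (W⁄L) (P.sym2x Q) i := by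
    intro i
    rw [map_asF, hW, ← asF_smul]
    congr 1
    funext j
    exact hv j
  have hprop : ∀ i j, asF (W.map C) (sym a₁ b₁ a₂ b₂) i * sym a₃ b₃ a₄ b₄ j =
      asF (W.map C) (sym a₁ b₁ a₂ b₂) j * sym a₃ b₃ a₄ b₄ i := by
    intro i j
    apply hinj
    rw [map_mul, map_mul, hF, hF, hv', hv']
    have := asF_sym2x (W⁄L) P Q i j
    linear_combination (l₁ * l₂) ^ 2 * (l₃ * l₄) * this
  have key := dmax3_eq_of_prop (prim_asF W hΔ (prim_sym h₁.1 h₂.1)) (prim_sym h₃.1 h₄.1) hprop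
  rw [dmax3_asF W hΔ, dmax3_sym h₁.1 h₂.1, dmax3_sym h₃.1 h₄.1] at key
  omega

end Fermat.Agent.Lib.FrobCH
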