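import Fermat.Agent.Lib.FrobCH.Height
import Fermat.Agent.Lib.FrobCH.Group
import Fermat.Agent.Lib.FrobCH.Parallelogram

/-!
# Frobenius Cayley-Hamilton library, node N8b: the height on the group of odd points
(helper129)
-/

set_option linter.unusedSectionVars false

namespace Fermat.Agent.Lib.FrobCH

open Polynomial WeierstrassCurve WeierstrassCurve.Affine

noncomputable section

variable {k : Type*} [Field k]

section Group

variable (A B : k) {L : Type*} [Field L] [DecidableEq L] [Algebra k L] [Algebra (RatFunc k) L]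
  [IsScalarTower k (RatFunc k) L] {y : L} (hy : y ^ 2 = pol L (fpol A B))

theorem hgt_some {W : Affine L} (r : RatFunc k) {y' : L}
    (h : W.Nonsingular (algebraMap (RatFunc k) L r) y') :
    hgt k (Point.some _ _ h) = hdeg r := by
  classical
  have hex : ∃ r' : RatFunc k, algebraMap (RatFunc k) L r' = algebraMap (RatFunc k) L r :=
    ⟨r, rfl⟩
  have h1 : hgt k (Point.some _ _ h) = hdeg hex.choose := by
    unfold hgt
    exact dif_pos hex
  rw [h1, (algebraMap (RatFunc k) L).injective hex.choose_spec]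

/-- `hgt_some` up to an equality of `x`-coordinates -/
theorem Hgt.hgt_some_of_eq {W : Affine L} (r : RatFunc k) {x' y' : L}
    (h : W.Nonsingular x' y') (hx : x' = algebraMap (RatFunc k) L r) :
    hgt k (Point.some _ _ h) = hdeg r := by
  subst hx
  exact hgt_some r h

theorem isX_of_some {W : Affine L} (r : RatFunc k) {y' : L}
    (h : W.Nonsingular (algebraMap (RatFunc k) L r) y') :
    IsX (Point.some _ _ h) r.num r.denom := by
  refine ⟨RatFunc.isCoprime_num_denom r, ?_⟩
  have h1 : r * algebraMap k[X] (RatFunc k) r.denom = algebraMap k[X] (RatFunc k) r.num := by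
    have h5 := RatFunc.num_div_denom r
    rw [div_eq_iff (RatFunc.algebraMap_ne_zero r.denom_ne_zero)] at h5
    exact h5.symm
  simp only [Point.xRep_some, Matrix.cons_val_zero, Matrix.cons_val_one, one_mul, pol,
    RingHom.comp_apply]
  rw [← map_mul, h1]

theorem isX_zero {W : Affine L} : IsX (k := k) (0 : W.Point) 1 0 := by
  refine ⟨isCoprime_one_left, ?_⟩
  simp

/-- every odd point has a coprime representative of its `x`-coordinate computing the height -/
theorem Hgt.exists_isX {P : ((shortW A B)⁄L).Point} (hP : InG A B y P) :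
    ∃ a b : k[X], IsX P a b ∧ dmax a b = hgt k P := by
  rcases hP with rfl | ⟨x, Y, h, rfl⟩
  · refine ⟨1, 0, isX_zero, ?_⟩
    have : hgt k (0 : ((shortW A B)⁄L).Point) = 0 := rfl
    rw [this]
    simp [dmax]
  · exact ⟨x.num, x.denom, isX_of_some x h, by rw [hgt_some]; rfl⟩

include hy in
theorem hgt_parallelogram (hΔ : (shortW A B).Δ ≠ 0) {P Q : ((shortW A B)⁄L).Point}
    (hP : InG A B y P) (hQ : InG A B y Q) :
    hgt k (P + Q) + hgt k (P - Q) = 2 * hgt k P + 2 * hgt k Q := by
  have hadd : InG A B y (P + Q) := InG.add A B hy hP hQ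
  have hsub : InG A B y (P - Q) := by
    rw [sub_eq_add_neg]
    exact InG.add A B hy hP (InG.neg A B hy hQ)
  obtain ⟨a₁, b₁, h₁, e₁⟩ := Hgt.exists_isX A B hP
  obtain ⟨a₂, b₂, h₂, e₂⟩ := Hgt.exists_isX A B hQ
  obtain ⟨a₃, b₃, h₃, e₃⟩ := Hgt.exists_isX A B hadd
  obtain ⟨a₄, b₄, h₄, e₄⟩ := Hgt.exists_isX A B hsub
  rw [← e₁, ← e₂, ← e₃, ← e₄]
  exact parallelogram (shortW A B) hΔ h₁ h₂ h₃ h₄

theorem hgt_frob [Fintype k] {P : ((shortW A B)⁄L).Point} (hP : InG A B y P) :
    hgt k (frob (shortW A B) L P) = Fintype.card k * hgt k P := by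
  rcases hP with rfl | ⟨x, Y, h, rfl⟩
  · rw [map_zero]
    have : hgt k (0 : ((shortW A B)⁄L).Point) = 0 := rfl
    rw [this, mul_zero]
  · rw [hgt_some]
    unfold Fermat.Agent.Lib.FrobCH.frob
    rw [Point.map_some, ← hdeg_pow]
    apply Hgt.hgt_some_of_eq
    rw [FiniteField.coe_frobeniusAlgHom, map_pow]

end Group

end

end Fermat.Agent.Lib.FrobCH
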