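import Fermat.Agent.Lib.FrobCH.Short
import Fermat.Agent.Lib.VarChange

/-!
# Cayley-Hamilton for the Frobenius endomorphism of an elliptic curve over a finite field of
characteristic `≠ 2, 3`, with the trace defined by the point count.
-/

namespace Fermat.Agent.Lib.FrobCH

open Polynomial WeierstrassCurve WeierstrassCurve.Affine
open Fermat.Agent.Lib.VarChange

variable {k : Type*} [Field k]

/-- **Cayley-Hamilton for Frobenius.**  `k` a finite field of characteristic `≠ 2, 3`, `W` a
Weierstrass curve over `k` with nonzero discriminant, `K` any field extension of `k`.  Then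
`frob² - a frob + q = 0` on `W(K)`, with `a = q + 1 - #W(k)`. -/
theorem CH [Fintype k] (h2 : (2 : k) ≠ 0) (h3 : (3 : k) ≠ 0) (W : WeierstrassCurve k)
    (hΔ : W.Δ ≠ 0) {K : Type*} [Field K] [Algebra k K] [DecidableEq K] (P : (W⁄K).Point) :
    frob W K (frob W K P)
        - ((Fintype.card k : ℤ) + 1 - (Nat.card W.toAffine.Point : ℤ)) • frob W K P
        + (Fintype.card k : ℤ) • P = 0 := by
  classical
  have : Invertible (2 : k) := invertibleOfNonzero h2
  have : Invertible (3 : k) := invertibleOfNonzero h3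
  obtain ⟨C, hC⟩ := W.exists_variableChange_isShortNF
  obtain ⟨A, B, hAB⟩ : ∃ A B : k, C • W = shortW A B := by
    refine ⟨(C • W).a₄, (C • W).a₆, ?_⟩
    ext <;> simp [shortW, hC.a₁, hC.a₂, hC.a₃]
  have hΔ' : (shortW A B).Δ ≠ 0 := by
    rw [← hAB, variableChange_Δ]
    exact mul_ne_zero (pow_ne_zero _ (Units.ne_zero _)) hΔ
  have hcard : Nat.card W.toAffine.Point = Nat.card (shortW A B).toAffine.Point :=
    Nat.card_congr (pointEquiv C W (shortW A B) hAB).toEquiv
  have hK : C.baseChange K • (W⁄K) = ((shortW A B)⁄K) := by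
    rw [← hAB]
    exact map_variableChange (W := W) C (algebraMap k K)
  let e := pointEquiv (C.baseChange K) (W⁄K) ((shortW A B)⁄K) hK
  have hfrob : ∀ Q : (W⁄K).Point, e (frob W K Q) = frob (shortW A B) K (e Q) := by
    intro Q
    exact (map_pointEquiv C W (shortW A B) hAB (FiniteField.frobeniusAlgHom k K) hK hK Q).symm
  apply e.injective
  rw [map_zero, map_add, map_sub, map_zsmul, map_zsmul, hfrob, hfrob, hcard]
  exact CH_short h2 A B hΔ' (e P)

/-- Consequence: a congruence between traces of Frobenius from a Frobenius-equivariant additive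
map which does not kill the Frobenius image of a point of order dividing `n`. -/
theorem dvd_sub_of_equivariant [Fintype k] (h2 : (2 : k) ≠ 0) (h3 : (3 : k) ≠ 0)
    (W W' : WeierstrassCurve k) (hΔ : W.Δ ≠ 0) (hΔ' : W'.Δ ≠ 0)
    {K : Type*} [Field K] [Algebra k K] [DecidableEq K] {n : ℕ} (hn : n.Prime)
    (M : AddSubgroup (W⁄K).Point) (hM : ∀ P ∈ M, frob W K P ∈ M)
    (ψ : M →+ (W'⁄K).Point) (hψ : Function.Injective ψ)
    (hψf : ∀ (P : (W⁄K).Point) (hP : P ∈ M), ψ ⟨frob W K P, hM P hP⟩ = frob W' K (ψ ⟨P, hP⟩))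
    {P : (W⁄K).Point} (hP : P ∈ M) (hP0 : P ≠ 0) (hnP : n • P = 0) :
    (n : ℤ) ∣ ((Fintype.card k : ℤ) + 1 - (Nat.card W'.toAffine.Point : ℤ)) -
      ((Fintype.card k : ℤ) + 1 - (Nat.card W.toAffine.Point : ℤ)) := by
  set a := ((Fintype.card k : ℤ) + 1 - (Nat.card W.toAffine.Point : ℤ))
  set a' := ((Fintype.card k : ℤ) + 1 - (Nat.card W'.toAffine.Point : ℤ))
  have h₁ := CH h2 h3 W hΔ P
  have h₂ := CH h2 h3 W' hΔ' (ψ ⟨P, hP⟩)
  have hφP : frob W K P ∈ M := hM P hP
  have hφφP : frob W K (frob W K P) ∈ M := hM _ hφP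
  -- transport the first relation by `ψ`
  have h₁' : frob W' K (frob W' K (ψ ⟨P, hP⟩)) - a • frob W' K (ψ ⟨P, hP⟩)
      + (Fintype.card k : ℤ) • ψ ⟨P, hP⟩ = 0 := by
    rw [← hψf P hP, ← hψf _ hφP, ← map_zsmul, ← map_zsmul, ← map_sub, ← map_add]
    have : (⟨frob W K (frob W K P), hφφP⟩ - a • ⟨frob W K P, hφP⟩
        + (Fintype.card k : ℤ) • ⟨P, hP⟩ : M) = 0 := by
      apply Subtype.ext
      simpa using h₁
    rw [this, map_zero]
  have h₃ : (a' - a) • frob W' K (ψ ⟨P, hP⟩) = 0 := by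
    rw [sub_smul]
    have := sub_eq_zero.mpr (h₁'.trans h₂.symm)
    rw [← this]
    abel
  rw [← hψf P hP, ← map_zsmul] at h₃
  have h₄ : (a' - a) • frob W K P = 0 := by
    have := hψ (h₃.trans (map_zero ψ).symm)
    simpa using congrArg Subtype.val this
  have h₅ : (a' - a) • P = 0 := by
    rw [← map_zsmul] at h₄
    exact Point.map_injective (W' := W) _ (h₄.trans (map_zero _).symm)
  -- the order of `P` is exactly `n`
  have hord : addOrderOf P = n := by
    have hd : addOrderOf P ∣ n := addOrderOf_dvd_of_nsmul_eq_zero hnP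
    rcases (Nat.dvd_prime hn).mp hd with h | h
    · exact absurd (AddMonoid.addOrderOf_eq_one_iff.mp h) hP0
    · exact h
  rw [← hord]
  exact (addOrderOf_dvd_iff_zsmul_eq_zero).mpr h₅

end Fermat.Agent.Lib.FrobCH
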