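import Fermat.Agent.Lib.FrobCH.GenericCH

/-!
# Cayley-Hamilton for Frobenius on a short Weierstrass curve
-/

namespace Fermat.Agent.Lib.FrobCH

open Polynomial WeierstrassCurve WeierstrassCurve.Affine

variable {k : Type*} [Field k]

/-- Frobenius commutes with the maps induced by `k`-algebra homomorphisms. -/
theorem map_frob [Fintype k] (W : WeierstrassCurve k) {K K' : Type*} [Field K] [Algebra k K]
    [DecidableEq K] [Field K'] [Algebra k K'] [DecidableEq K'] (f : K →ₐ[k] K')
    (P : (W⁄K).Point) :
    Point.map (W' := W) f (frob W K P) = frob W K' (Point.map (W' := W) f P) := by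
  unfold frob
  rw [Point.map_map, Point.map_map]
  have e : f.comp (FiniteField.frobeniusAlgHom k K) = (FiniteField.frobeniusAlgHom k K').comp f := by
    ext x
    simp [FiniteField.coe_frobeniusAlgHom]
  rw [e]

/-- the operator `frob² - a frob + q`. -/
noncomputable def rho [Fintype k] (W : WeierstrassCurve k) (K : Type*) [Field K] [Algebra k K]
    [DecidableEq K] (a : ℤ) : (W⁄K).Point →+ (W⁄K).Point :=
  (frob W K).comp (frob W K) - a • frob W K + (Fintype.card k : ℤ) • AddMonoidHom.id _

theorem rho_apply [Fintype k] (W : WeierstrassCurve k) (K : Type*) [Field K] [Algebra k K]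
    [DecidableEq K] (a : ℤ) (P : (W⁄K).Point) :
    rho W K a P = frob W K (frob W K P) - a • frob W K P + (Fintype.card k : ℤ) • P := by
  simp [rho]

theorem map_rho [Fintype k] (W : WeierstrassCurve k) {K K' : Type*} [Field K] [Algebra k K]
    [DecidableEq K] [Field K'] [Algebra k K'] [DecidableEq K'] (f : K →ₐ[k] K') (a : ℤ)
    (P : (W⁄K).Point) :
    Point.map (W' := W) f (rho W K a P) = rho W K' a (Point.map (W' := W) f P) := by
  simp only [rho_apply, map_add, map_sub, map_zsmul, map_frob]

theorem IsConst.map_eq {W : WeierstrassCurve k} {K K' : Type*} [Field K] [Algebra k K]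
    [DecidableEq K] [Field K'] [Algebra k K'] [DecidableEq K'] {P : (W⁄K).Point}
    (hP : IsConst P) (f g : K →ₐ[k] K') :
    Point.map (W' := W) f P = Point.map (W' := W) g P := by
  rcases hP with rfl | ⟨c, d, h, rfl⟩
  · simp
  · simp only [Point.map_some, AlgHom.commutes]

theorem nonsingular_of_eq (A B : k) (hΔ : (shortW A B).Δ ≠ 0) {K : Type*} [Field K] [Algebra k K]
    {t y : K} (h : y ^ 2 = t ^ 3 + algebraMap k K A * t + algebraMap k K B) :
    ((shortW A B)⁄K).Nonsingular t y := by
  have hΔ' : ((shortW A B)⁄K).Δ ≠ 0 := by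
    simp only [Affine.baseChange, WeierstrassCurve.baseChange, WeierstrassCurve.map_Δ]
    exact (_root_.map_ne_zero _).mpr hΔ
  refine (Affine.equation_iff_nonsingular_of_Δ_ne_zero hΔ').mp ?_
  rw [Affine.equation_iff]
  simp [shortW, h]

theorem eq_of_nonsingular (A B : k) {K : Type*} [Field K] [Algebra k K]
    {t y : K} (h : ((shortW A B)⁄K).Nonsingular t y) :
    y ^ 2 = t ^ 3 + algebraMap k K A * t + algebraMap k K B := by
  have := (Affine.equation_iff _ _).mp h.1
  simpa [shortW] using this

theorem CH_short [Fintype k] (h2 : (2 : k) ≠ 0) (A B : k) (hΔ : (shortW A B).Δ ≠ 0)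
    {K : Type*} [Field K] [Algebra k K] [DecidableEq K] (P : ((shortW A B)⁄K).Point) :
    frob (shortW A B) K (frob (shortW A B) K P)
        - ((Fintype.card k : ℤ) + 1 - (Nat.card (shortW A B).toAffine.Point : ℤ)) •
            frob (shortW A B) K P
        + (Fintype.card k : ℤ) • P = 0 := by
  classical
  set a : ℤ := (Fintype.card k : ℤ) + 1 - (Nat.card (shortW A B).toAffine.Point : ℤ) with ha
  rw [← rho_apply]
  -- the big field
  let Ω := AlgebraicClosure (RatFunc K)
  let t : Ω := algebraMap (RatFunc K) Ω RatFunc.X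
  obtain ⟨y₁, hy₁⟩ := IsAlgClosed.exists_pow_nat_eq
    (t ^ 3 + algebraMap k Ω A * t + algebraMap k Ω B) (n := 2) (by norm_num)
  have hη₁ : ((shortW A B)⁄Ω).Nonsingular t y₁ := nonsingular_of_eq A B hΔ hy₁
  let η₁ : ((shortW A B)⁄Ω).Point := .some t y₁ hη₁
  let v : ((shortW A B)⁄Ω).Point := Point.baseChange (W' := shortW A B) K Ω P
  let η₂ : ((shortW A B)⁄Ω).Point := η₁ + v
  -- the subgroup of points algebraic over `K`
  let M : IntermediateField K Ω := algebraicClosure K Ω
  let S : AddSubgroup ((shortW A B)⁄Ω).Point := (Point.map (W' := shortW A B) (S := K) M.val).range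
  have htK : Transcendental K t := by
    have : Transcendental K (RatFunc.X : RatFunc K) := by
      apply RatFunc.transcendental_of_ne_C
      exact X_ne_C
    exact (transcendental_algebraMap_iff (algebraMap (RatFunc K) Ω).injective).mpr this
  have hmemS : ∀ {x y : Ω} (h : ((shortW A B)⁄Ω).Nonsingular x y), IsAlgebraic K x →
      (Point.some x y h : ((shortW A B)⁄Ω).Point) ∈ S := by
    intro x y h hx
    have hy : IsAlgebraic K y := by
      have e := eq_of_nonsingular A B h
      have : IsAlgebraic K (y ^ 2) := by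
        rw [e]
        have hA : IsAlgebraic K (algebraMap k Ω A) := by
          rw [IsScalarTower.algebraMap_apply k K Ω]; exact isAlgebraic_algebraMap _
        have hB : IsAlgebraic K (algebraMap k Ω B) := by
          rw [IsScalarTower.algebraMap_apply k K Ω]; exact isAlgebraic_algebraMap _
        exact ((hx.pow 3).add (hA.mul hx)).add hB
      exact this.of_pow (by norm_num)
    have hxM : x ∈ M := (mem_algebraicClosure_iff).mpr hx
    have hyM : y ∈ M := (mem_algebraicClosure_iff).mpr hy
    have h' : ((shortW A B)⁄M).Nonsingular (⟨x, hxM⟩ : M) ⟨y, hyM⟩ :=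
      (Affine.baseChange_nonsingular (shortW A B) (f := M.val) M.val.injective ..).mp h
    exact ⟨.some _ _ h', by simp [Point.map_some]⟩
  have hvS : v ∈ S := by
    refine ⟨Point.baseChange (W' := shortW A B) K M P, ?_⟩
    exact Point.map_baseChange (W' := shortW A B) M.val P
  have hη₁S : η₁ ∉ S := by
    rintro ⟨Q, hQ⟩
    cases Q with
    | zero => simp [η₁, ← Point.zero_def] at hQ
    | some x y h =>
      rw [Point.map_some] at hQ
      simp only [η₁, Point.some.injEq] at hQ
      apply htK
      rw [← hQ.1]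
      exact (mem_algebraicClosure_iff).mp x.2
  have hη₂S : η₂ ∉ S := by
    intro h
    apply hη₁S
    have : η₁ = η₂ - v := by simp [η₂]
    rw [this]
    exact S.sub_mem h hvS
  have htk : Transcendental k t := by
    intro h
    exact htK (h.extendScalars (algebraMap k K).injective)
  -- the universal generic point
  let L := AdjoinRoot (Lpoly A B)
  have hη : ((shortW A B)⁄L).Nonsingular (algebraMap (RatFunc k) L RatFunc.X) (AdjoinRoot.root (Lpoly A B)) := by
    apply nonsingular_of_eq A B hΔ
    rw [root_sq]
    simp only [pol, fpol, RingHom.comp_apply, map_add, map_mul, map_pow, RatFunc.algebraMap_X,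
      RatFunc.algebraMap_C]
    rw [IsScalarTower.algebraMap_apply k (RatFunc k) L A,
      IsScalarTower.algebraMap_apply k (RatFunc k) L B, RatFunc.algebraMap_eq_C]
  let η : ((shortW A B)⁄L).Point := .some _ _ hη
  have hT : IsConst (rho (shortW A B) L a η) := by
    rw [rho_apply]
    exact generic_CH h2 A B hΔ hη
  obtain ⟨τ₁, hτ₁t, hτ₁y⟩ := exists_hom A B t y₁ htk hy₁
  have e₁ : Point.map (W' := shortW A B) τ₁ η = η₁ := by
    simp only [η, η₁, Point.map_some, Point.some.injEq]
    exact ⟨hτ₁t, hτ₁y⟩
  -- the second generic point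
  have key : rho (shortW A B) Ω a η₂ = rho (shortW A B) Ω a η₁ := by
    rcases hη₂ : η₂ with _ | ⟨t₂, y₂, h₂⟩
    · exfalso
      apply hη₂S
      rw [hη₂]
      exact S.zero_mem
    · have ht₂ : Transcendental k t₂ := by
        intro h
        apply hη₂S
        rw [hη₂]
        exact hmemS h₂ (h.extendScalars (algebraMap k K).injective)
      obtain ⟨τ₂, hτ₂t, hτ₂y⟩ := exists_hom A B t₂ y₂ ht₂ (eq_of_nonsingular A B h₂)
      have e₂ : Point.map (W' := shortW A B) τ₂ η = .some t₂ y₂ h₂ := by
        simp only [η, Point.map_some, Point.some.injEq]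
        exact ⟨hτ₂t, hτ₂y⟩
      rw [← e₂, ← e₁, ← map_rho, ← map_rho]
      exact hT.map_eq τ₂ τ₁
  have hv0 : rho (shortW A B) Ω a v = 0 := by
    have : rho (shortW A B) Ω a η₂ = rho (shortW A B) Ω a η₁ + rho (shortW A B) Ω a v := map_add _ _ _
    rw [key] at this
    simpa using this
  have : Point.map (W' := shortW A B) (Algebra.ofId K Ω |>.restrictScalars k) (rho (shortW A B) K a P) = 0 := by
    rw [map_rho]
    exact hv0
  exact Point.map_injective (W' := shortW A B) _ (this.trans (map_zero _).symm)

end Fermat.Agent.Lib.FrobCH
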