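import Mathlib
import Fermat.Agent.Lib.FrobCH.Defs

/-!
# FrobCH, node N3: primitive triples of polynomials and the symmetric product
Owner: helper193.
-/

set_option autoImplicit false

namespace Fermat.Agent.Lib.FrobCH

open Polynomial

noncomputable section

variable {k : Type*} [Field k]

theorem triple_natDegree_eq_of_prop {v w : Fin 3 → k[X]} (hv : Prim v) (hw : Prim w)
    (h : ∀ i j, v i * w j = v j * w i) (j : Fin 3) : (v j).natDegree = (w j).natDegree := by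
  obtain ⟨c, hc⟩ := hv
  obtain ⟨c', hc'⟩ := hw
  set e : k[X] := c 0 * w 0 + c 1 * w 1 + c 2 * w 2 with he
  set e' : k[X] := c' 0 * v 0 + c' 1 * v 1 + c' 2 * v 2 with he'
  have h1 : ∀ j, w j = v j * e := by
    intro j
    rw [he]
    linear_combination (-(w j)) * hc + c 0 * h 0 j + c 1 * h 1 j + c 2 * h 2 j
  have h2 : ∀ j, v j = w j * e' := by
    intro j
    rw [he']
    linear_combination (-(v j)) * hc' + c' 0 * h j 0 + c' 1 * h j 1 + c' 2 * h j 2
  have hee : e * e' = 1 := by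
    have : c 0 * (w 0 * e') + c 1 * (w 1 * e') + c 2 * (w 2 * e') = 1 := by
      rw [← h2 0, ← h2 1, ← h2 2]; exact hc
    rw [he]
    linear_combination this
  have hu : IsUnit e := IsUnit.of_mul_eq_one _ hee
  obtain ⟨u, hu0, hue⟩ := Polynomial.isUnit_iff.mp hu
  rw [h1 j, ← hue, Polynomial.natDegree_mul_C hu0.ne_zero]

theorem dmax3_eq_of_prop {v w : Fin 3 → k[X]} (hv : Prim v) (hw : Prim w)
    (h : ∀ i j, v i * w j = v j * w i) : dmax3 v = dmax3 w := by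
  unfold dmax3
  rw [triple_natDegree_eq_of_prop hv hw h 0, triple_natDegree_eq_of_prop hv hw h 1,
    triple_natDegree_eq_of_prop hv hw h 2]

theorem prim_sym {a₁ b₁ a₂ b₂ : k[X]} (h₁ : IsCoprime a₁ b₁) (h₂ : IsCoprime a₂ b₂) :
    Prim (sym a₁ b₁ a₂ b₂) := by
  obtain ⟨p₁, q₁, h₁⟩ := h₁
  obtain ⟨p₂, q₂, h₂⟩ := h₂
  refine ⟨![p₁ ^ 2 * p₂ ^ 2 * (a₁ * a₂) + 2 * p₁ ^ 2 * p₂ * q₂ * (a₁ * b₂)
        - p₁ ^ 2 * q₂ ^ 2 * (b₁ * b₂) + 2 * p₁ * q₁ * p₂ ^ 2 * (a₂ * b₁)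
        + 4 * p₁ * q₁ * p₂ * q₂ * (b₁ * b₂) - q₁ ^ 2 * p₂ ^ 2 * (b₁ * b₂),
      p₁ ^ 2 * q₂ ^ 2 * (a₁ * b₂) + q₁ ^ 2 * p₂ ^ 2 * (a₂ * b₁),
      2 * p₁ * q₁ * q₂ ^ 2 * (a₁ * b₂) + 2 * q₁ ^ 2 * p₂ * q₂ * (a₂ * b₁)
        + q₁ ^ 2 * q₂ ^ 2 * (b₁ * b₂)], ?_⟩
  simp only [sym, Matrix.cons_val_zero, Matrix.cons_val_one, Matrix.cons_val]
  linear_combination ((p₁ * a₁ + q₁ * b₁) + 1) * (p₂ * a₂ + q₂ * b₂) ^ 2 * h₁
    + ((p₂ * a₂ + q₂ * b₂) + 1) * h₂

theorem triple_natDegree_le_dmax_left (a b : k[X]) : a.natDegree ≤ dmax a b := le_max_left _ _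

theorem triple_natDegree_le_dmax_right (a b : k[X]) : b.natDegree ≤ dmax a b := le_max_right _ _

theorem triple_coeff_dmax_ne_zero {a b : k[X]} (h : IsCoprime a b) :
    a.coeff (dmax a b) ≠ 0 ∨ b.coeff (dmax a b) ≠ 0 := by
  have hne : a ≠ 0 ∨ b ≠ 0 := by
    by_contra hcon
    rw [not_or, not_not, not_not] at hcon
    obtain ⟨p, q, hpq⟩ := h
    rw [hcon.1, hcon.2] at hpq
    simp at hpq
  rcases le_total a.natDegree b.natDegree with hle | hle
  · have hd : dmax a b = b.natDegree := max_eq_right hle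
    rw [hd]
    by_cases hb : b = 0
    · left
      have ha : a ≠ 0 := hne.resolve_right (not_not.mpr hb)
      have h0 : a.natDegree = 0 := by
        rw [hb, natDegree_zero] at hle
        exact Nat.le_zero.mp hle
      rw [hb, natDegree_zero, ← h0]
      exact leadingCoeff_ne_zero.mpr ha
    · right
      exact leadingCoeff_ne_zero.mpr hb
  · have hd : dmax a b = a.natDegree := max_eq_left hle
    rw [hd]
    by_cases ha : a = 0
    · right
      have hb : b ≠ 0 := hne.resolve_left (not_not.mpr ha)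
      have h0 : b.natDegree = 0 := by
        rw [ha, natDegree_zero] at hle
        exact Nat.le_zero.mp hle
      rw [ha, natDegree_zero, ← h0]
      exact leadingCoeff_ne_zero.mpr hb
    · left
      exact leadingCoeff_ne_zero.mpr ha

theorem dmax3_sym {a₁ b₁ a₂ b₂ : k[X]} (h₁ : IsCoprime a₁ b₁) (h₂ : IsCoprime a₂ b₂) :
    dmax3 (sym a₁ b₁ a₂ b₂) = dmax a₁ b₁ + dmax a₂ b₂ := by
  set d₁ := dmax a₁ b₁ with hd₁
  set d₂ := dmax a₂ b₂ with hd₂
  have ha₁ : a₁.natDegree ≤ d₁ := triple_natDegree_le_dmax_left _ _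
  have hb₁ : b₁.natDegree ≤ d₁ := triple_natDegree_le_dmax_right _ _
  have ha₂ : a₂.natDegree ≤ d₂ := triple_natDegree_le_dmax_left _ _
  have hb₂ : b₂.natDegree ≤ d₂ := triple_natDegree_le_dmax_right _ _
  have e0 : sym a₁ b₁ a₂ b₂ 0 = a₁ * a₂ := rfl
  have e1 : sym a₁ b₁ a₂ b₂ 1 = a₁ * b₂ + a₂ * b₁ := rfl
  have e2 : sym a₁ b₁ a₂ b₂ 2 = b₁ * b₂ := rfl
  unfold dmax3
  rw [e0, e1, e2]
  apply le_antisymm
  · refine max_le ?_ (max_le ?_ ?_)
    · exact natDegree_mul_le.trans (add_le_add ha₁ ha₂)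
    · refine (natDegree_add_le _ _).trans (max_le ?_ ?_)
      · exact natDegree_mul_le.trans (add_le_add ha₁ hb₂)
      · exact natDegree_mul_le.trans ((add_le_add ha₂ hb₁).trans (add_comm _ _).le)
    · exact natDegree_mul_le.trans (add_le_add hb₁ hb₂)
  · have c0 : (a₁ * a₂).coeff (d₁ + d₂) = a₁.coeff d₁ * a₂.coeff d₂ :=
      coeff_mul_add_eq_of_natDegree_le ha₁ ha₂
    have c1 : (a₁ * b₂ + a₂ * b₁).coeff (d₁ + d₂)
        = a₁.coeff d₁ * b₂.coeff d₂ + a₂.coeff d₂ * b₁.coeff d₁ := by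
      rw [coeff_add, coeff_mul_add_eq_of_natDegree_le ha₁ hb₂, add_comm d₁ d₂,
        coeff_mul_add_eq_of_natDegree_le ha₂ hb₁]
    have c2 : (b₁ * b₂).coeff (d₁ + d₂) = b₁.coeff d₁ * b₂.coeff d₂ :=
      coeff_mul_add_eq_of_natDegree_le hb₁ hb₂
    have n₁ := triple_coeff_dmax_ne_zero h₁
    have n₂ := triple_coeff_dmax_ne_zero h₂
    rw [← hd₁] at n₁
    rw [← hd₂] at n₂
    by_cases z0 : (a₁ * a₂).coeff (d₁ + d₂) = 0
    · by_cases z2 : (b₁ * b₂).coeff (d₁ + d₂) = 0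
      · have z1 : (a₁ * b₂ + a₂ * b₁).coeff (d₁ + d₂) ≠ 0 := by
          rw [c1]
          rw [c0] at z0
          rw [c2] at z2
          rcases mul_eq_zero.mp z0 with hz | hz
          · have hβ₁ : b₁.coeff d₁ ≠ 0 := n₁.resolve_left (not_not.mpr hz)
            have hβ₂ : b₂.coeff d₂ = 0 := (mul_eq_zero.mp z2).resolve_left hβ₁
            have hα₂ : a₂.coeff d₂ ≠ 0 := n₂.resolve_right (not_not.mpr hβ₂)
            rw [hz, zero_mul, zero_add]
            exact mul_ne_zero hα₂ hβ₁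
          · have hβ₂ : b₂.coeff d₂ ≠ 0 := n₂.resolve_left (not_not.mpr hz)
            have hβ₁ : b₁.coeff d₁ = 0 := (mul_eq_zero.mp z2).resolve_right hβ₂
            have hα₁ : a₁.coeff d₁ ≠ 0 := n₁.resolve_right (not_not.mpr hβ₁)
            rw [hz, zero_mul, add_zero]
            exact mul_ne_zero hα₁ hβ₂
        exact (le_natDegree_of_ne_zero z1).trans ((le_max_left _ _).trans (le_max_right _ _))
      · exact (le_natDegree_of_ne_zero z2).trans ((le_max_right _ _).trans (le_max_right _ _))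
    · exact (le_natDegree_of_ne_zero z0).trans (le_max_left _ _)

end

end Fermat.Agent.Lib.FrobCH
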